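import Fermat.Agent.LT3.Series.Law
import Fermat.Agent.LT3.TAuto

/-!
# The lifted series of the special functions

Their law under `Γ₁(27)` is given by `wW`; a norm one unit modulo `E` acts by the character `θ`.
-/

set_option autoImplicit false
open Matrix QuadraticAlgebra MeasureTheory Filter
open scoped Real MatrixGroups ComplexConjugate Classical

namespace Fermat.LT3
open Fermat.LT

variable {E : ℕ} [NeZero E]

omit [NeZero E] in
/-- The special function is additive in `φ`. -/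
lemma spec_add (cls : Cl3) (φ ψ : CP E → ℂ) :
    spec cls (φ + ψ) = spec cls φ + spec cls ψ := by
  funext X
  simp only [spec, specB, Pi.add_apply]
  split_ifs <;> simp

omit [NeZero E] in
/-- The special function is homogeneous in `φ`. -/
lemma spec_smul (cls : Cl3) (c : ℂ) (φ : CP E → ℂ) : spec cls (c • φ) = c • spec cls φ := by
  funext X
  simp only [spec, specB, Pi.smul_apply, smul_eq_mul]
  split_ifs <;> simp

/-- A norm one residue gives a pair of norm one. -/
lemma cnorm_prER_one {n : ℕ} {x : ER (ZMod n)} (hx : QuadraticAlgebra.norm x = 1) :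
    cnorm (prER x) = 1 := by rw [cnorm_prER, hx]

/-- The twists of a special function are supported on the lifted points. -/
lemma mem_range_of_twist_spec_ne {cls : Cl3} {φ : CP E → ℂ} {M : GN (3 * E)} (hM : ndet M = 1)
    {X : Lz} (h : twist (spec cls φ) M X ≠ 0) : X ∈ Set.range lam := by
  obtain ⟨γ, δ, hδ, rfl⟩ := exists_decomp hM
  have hX : X = dact γ.val (dact (γ⁻¹ : GL (Fin 2) EI).val X) := by
    rw [← dact_mul, Units.mul_inv, dact_one]
  rw [hX, twist_gr_mul (per_spec cls φ), twist_spec cls φ δ hδ] at h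
  obtain ⟨μ, hμ⟩ := support_spec _ _ h
  exact ⟨lact γ.val μ, by rw [← dact_lam, hμ, ← hX]⟩

/-- The form `q3` of a lifted point is divisible by three. -/
lemma three_dvd_q3_lam (μ : Lz) : (3 : ℤ) ∣ q3 (lam μ) :=
  ⟨qh μ.2.1.1 μ.2.1.2 - μ.1 * μ.2.2, by simp [q3, lam, qd, qh]; ring⟩

/-- The coefficients at norms not divisible by three vanish. -/
theorem kap_spec_eq_zero (A : Auto E) (cls : Cl3) (φ : CP E → ℂ) {n : ℤ} (h : ¬ (3 : ℤ) ∣ n) :
    kap A (spec cls φ) n = 0 := by
  have h0 : ∀ F : ℝ → ℂ, cI A (spec cls φ) n F = 0 := fun F => by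
    have e : ∀ w, sG A n (spec cls φ) F w = 0 := fun w => by
      refine Finset.sum_eq_zero fun M _ => ?_
      rw [aM, tsum_congr (g := fun _ => (0 : ℂ)) fun X => ?_, tsum_zero, mul_zero]
      by_contra hX
      obtain ⟨μ, hμ⟩ := mem_range_of_twist_spec_ne M.2 (left_ne_zero_of_mul hX)
      exact h (by rw [← X.2, ← hμ]; exact three_dvd_q3_lam μ)
    exact integral_eq_zero_of_ae (Eventually.of_forall fun w => mul_eq_zero_of_right _ (e w))
  simp only [cI] at h0
  simp [kap, pairCoef, h0]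

variable [Fact (Nat.Coprime E 3)]

/-- The law `wW` commutes with multiplication by an element of norm one. -/
lemma wW_cmul {γ : SL(2, ℤ)} (hγ : InG27 γ) {u : CP E} (hu : cnorm u = 1) (φ : CP E → ℂ) :
    wW γ (φ ∘ cmul u) = wW γ φ ∘ cmul u := by
  have h1 : ∀ ψ : CP E → ℂ, tri (ψ ∘ cmul u) = tri ψ ∘ cmul u := fun ψ => by
    funext x
    simp only [tri, Function.comp_apply, cmul]
    congr 2 <;> ring
  have h2 : ∀ ψ : CP E → ℂ, triInv (ψ ∘ cmul u) = triInv ψ ∘ cmul u := fun ψ => by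
    funext x
    simp only [triInv, Function.comp_apply, cmul]
    congr 2 <;> ring
  simp only [wW, LinearMap.comp_apply, triL, triInvL, LinearMap.coe_mk, AddHom.coe_mk]
  rw [h1, wop_cmul hγ.conj9_mem hu, h2]

/-- **The law on the lattice series.** On `Γ₁(27)` the twisted lattice series at `3τ` transforms
with `wW γ` on the class function. -/
theorem lat_spec_law (cls : Cl3) (φ : CP E → ℂ) {γ : SL(2, ℤ)} (hγ : InG27 γ) {M : GN (3 * E)}
    (hM : ndet M = 1) {τ : ℂ} (hτ : 0 < τ.im) (w : H3) :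
    lat (3 * E) (twist (spec cls φ) M)
      (3 * (((γ 0 0 : ℂ) * τ + γ 0 1) / ((γ 1 0 : ℂ) * τ + γ 1 1))) w
      = ((γ 1 0 : ℂ) * τ + γ 1 1) * lat (3 * E) (twist (spec cls (wW γ φ)) M) (3 * τ) w := by
  obtain ⟨g, δ, hδ, rfl⟩ := exists_decomp hM
  have hw : w = gC g • (gC g⁻¹ • w) := by
    rw [smul_smul, ← map_mul, mul_inv_cancel, map_one, one_smul]
  rw [hw, lat_twist_smul (per_spec cls φ), lat_twist_smul (per_spec cls _), twist_spec cls φ δ hδ,
    twist_spec cls _ δ hδ]
  set u := prER (castEh E ((δ⁻¹ : _ˣ) : ER (ZMod (3 * (3 * E))))) with hud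
  have hu : cnorm u = 1 := cnorm_prER_one (by
    rw [castEh, norm_castER,
      show QuadraticAlgebra.norm ((δ⁻¹ : _ˣ) : ER (ZMod (3 * (3 * E)))) = 1 by
      have := congrArg QuadraticAlgebra.norm δ.inv_mul
      rwa [map_mul, hδ, mul_one, map_one] at this, map_one])
  have h := kerS_law (cls.1, cmul (prER (castThree (δ : ER (ZMod (3 * (3 * E)))))) cls.2.1, cls.2.2)
    hγ (φ ∘ cmul u) hτ (gC g⁻¹ • w)
  rw [wW_cmul hγ hu] at h
  exact h

/-- The matrix acting on the variable `3 τ`. -/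
def conj3 (γ : SL(2, ℤ)) (h : (3 : ℤ) ∣ γ 1 0) : SL(2, ℤ) :=
  ⟨!![γ 0 0, 3 * γ 0 1; γ 1 0 / 3, γ 1 1], by
    have hdet := γ.det_coe
    rw [Matrix.det_fin_two] at hdet
    rw [Matrix.det_fin_two_of]
    linear_combination hdet - (γ 0 1) * (Int.ediv_mul_cancel h)⟩

/-- The lower left entry is divisible by three. -/
lemma InG27.three_dvd {γ : SL(2, ℤ)} (h : InG27 γ) : (3 : ℤ) ∣ γ 1 0 :=
  dvd_trans (by norm_num) h.dvd.2.1

/-- **The law of the series.** On `Γ₁(27)` the lifted series transforms with `wW γ` on the class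
function. -/
theorem trans_spec (A : Auto E) (cls : Cl3) (φ : CP E → ℂ) {γ : SL(2, ℤ)} (hγ : InG27 γ) :
    Trans A (conj3 γ hγ.three_dvd) (spec cls φ) (spec cls (wW γ φ)) 1 := by
  intro σ hσ
  obtain ⟨c, hc⟩ := hγ.three_dvd
  have hτ : 0 < (σ / 3).im := by rw [Complex.div_ofNat_im]; positivity
  have e : (γ 1 0 / 3 : ℤ) = c := by omega
  simp only [conj3, Matrix.of_apply, Matrix.cons_val', Matrix.cons_val_zero, Matrix.cons_val_one,
    Matrix.empty_val', Matrix.cons_val_fin_one, e, one_mul]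
  push_cast
  have hden : (c : ℂ) * σ + γ 1 1 = (γ 1 0 : ℂ) * (σ / 3) + γ 1 1 := by rw [hc]; push_cast; ring
  have harg : ((γ 0 0 : ℂ) * σ + 3 * (γ 0 1 : ℂ)) / ((c : ℂ) * σ + γ 1 1)
      = 3 * (((γ 0 0 : ℂ) * (σ / 3) + γ 0 1) / ((γ 1 0 : ℂ) * (σ / 3) + γ 1 1)) := by
    rw [hden, ← mul_div_assoc]
    ring
  rw [harg, hden]
  simp only [FS, pairLift, pairLiftI]
  rw [← integral_const_mul]
  refine integral_congr_ae (Eventually.of_forall fun w => ?_)
  simp only [Finset.mul_sum]
  refine Finset.sum_congr rfl fun M _ => ?_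
  rw [lat_spec_law cls φ hγ M.2 hτ w, show 3 * (σ / 3) = σ by ring]
  ring

omit [NeZero E] [Fact (Nat.Coprime E 3)] in
/-- Nine is coprime to `E` if three is. -/
lemma isCoprime_nine (h : Nat.Coprime E 3) : IsCoprime (9 : ℤ) (E : ℤ) := by
  have : Nat.Coprime 9 E := Nat.Coprime.pow_left 2 h.symm
  exact_mod_cast Nat.isCoprime_iff_coprime.2 this

omit [NeZero E] [Fact (Nat.Coprime E 3)] in
/-- For `E` prime to `3` some integer is divisible by `9` and `≡ 1 (mod E)`. -/
lemma int_coprime_crt (h : Nat.Coprime E 3) :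
    ∃ e : ℤ, (9 : ℤ) ∣ e ∧ (E : ℤ) ∣ e - 1 := by
  obtain ⟨a, b, hab⟩ := isCoprime_nine h
  exact ⟨a * 9, dvd_mul_left _ _, ⟨-b, by linear_combination hab⟩⟩

/-- A norm one class `u` modulo `E` is the image of the inverse of a norm one unit modulo `9E`
which is one modulo three. -/
theorem exists_unit_lift {u : CP E} (hu : cnorm u = 1) :
    ∃ δ : (RN E)ˣ, QuadraticAlgebra.norm (δ : RN E) = 1 ∧ castPi E δ = 1 ∧
      castThree (δ : RN E) = 1 ∧ prER (castEh E ((δ⁻¹ : (RN E)ˣ) : RN E)) = u := by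
  obtain ⟨e, ⟨i, hi⟩, ⟨j, hj⟩⟩ := int_coprime_crt (E := E) Fact.out
  -- `d`: the class `u` modulo `E`, one modulo nine
  set d : EI := ⟨1 + e * ((u.1.val : ℤ) - 1), e * (u.2.val : ℤ)⟩ with hd
  have he : ((e : ℤ) : ZMod E) = 1 := by
    have := (ZMod.intCast_eq_intCast_iff_dvd_sub (1 : ℤ) e E).2 ⟨j, hj⟩
    simpa using this.symm
  have hE : castEh E (red (3 * (3 * E)) d) = ⟨u.1, u.2⟩ := by
    rw [castEh, castER_red]
    apply QuadraticAlgebra.ext <;> simp [hd, he]
  have h3 : castThree (red (3 * (3 * E)) d) = 1 := by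
    rw [castThree, castER_red]
    apply QuadraticAlgebra.ext <;> simp [hd, hi, show (9 : ZMod 3) = 0 from rfl]
  have hn : ((QuadraticAlgebra.norm d : ℤ) : ZMod (3 * (3 * E))) = 1 := by
    refine Eq.trans ?_ Int.cast_one
    rw [ZMod.intCast_eq_intCast_iff_dvd_sub]
    have hco : IsCoprime (9 : ℤ) (E : ℤ) := isCoprime_nine Fact.out
    have h9 : (9 : ℤ) ∣ 1 - QuadraticAlgebra.norm d := by
      have : ((1 - QuadraticAlgebra.norm d : ℤ) : ZMod 9) = 0 := by
        simp [hd, QuadraticAlgebra.norm_def, hi, show (9 : ZMod 9) = 0 from rfl]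
      simpa using (ZMod.intCast_zmod_eq_zero_iff_dvd _ 9).1 this
    have hEd : (E : ℤ) ∣ 1 - QuadraticAlgebra.norm d := by
      refine (ZMod.intCast_zmod_eq_zero_iff_dvd _ E).1 ?_
      simp only [cnorm, qh] at hu
      simp [hd, QuadraticAlgebra.norm_def, he]
      linear_combination -hu
    have := hco.mul_dvd h9 hEd
    push_cast
    rwa [show (3 : ℤ) * (3 * (E : ℤ)) = 9 * E by ring]
  set y : RN E := red (3 * (3 * E)) d with hy
  have hny : QuadraticAlgebra.norm y = 1 := by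
    refine Eq.trans ?_ hn
    simp [hy, QuadraticAlgebra.norm_def]
  have hmul : y * star y = 1 := by
    have e2 : y * star y = algebraMap (ZMod (3 * (3 * E))) (RN E) (QuadraticAlgebra.norm y) := by
      rw [QuadraticAlgebra.norm_def]
      apply QuadraticAlgebra.ext <;> simp <;> ring
    rw [e2, hny, map_one]
  have h3' : castThree (star y) = 1 := by
    rw [castThree, castER, erMap_star]
    exact (congrArg star h3).trans (star_one _)
  -- the conjugate is the inverse
  refine ⟨⟨star y, y, by rw [mul_comm]; exact hmul, hmul⟩, ?_, ?_, ?_, ?_⟩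
  · change QuadraticAlgebra.norm (star y) = 1
    refine Eq.trans ?_ hny
    simp [QuadraticAlgebra.norm_def]
    ring
  · change castPi E (star y) = 1
    rw [castPi, RingHom.comp_apply]
    exact (congrArg piHom h3').trans (map_one _)
  · exact h3'
  · change prER (castEh E y) = u
    rw [hE]
    rfl

omit [Fact (E.Coprime 3)] in
/-- Twists compose. -/
lemma twist_twist {Ψ : Lz → ℂ} (hΨ : Per (3 * E) Ψ) (M D : GN (3 * E)) :
    twist (twist Ψ D) M = twist Ψ (M * D) := by
  funext X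
  rw [twist_eq hΨ (M := M * D) (m := liftM (D⁻¹).val * liftM (M⁻¹).val)
    (by rw [Matrix.map_mul, red_liftM, red_liftM, _root_.mul_inv_rev, Units.val_mul]), dact_mul]
  rfl

/-- **The character**: a norm one `u` in the argument scales the series by `θ u`. -/
theorem FS_spec_cmul (A : TAuto E) (cls : Cl3) (φ : CP E → ℂ) {u : CP E} (hu : cnorm u = 1)
    (τ : ℂ) :
    FS A.toAuto (spec cls (φ ∘ cmul u)) τ = A.θ ⟨u.1, u.2⟩ * FS A.toAuto (spec cls φ) τ := by
  obtain ⟨δ, hδ, hπ, h3, hE⟩ := exists_unit_lift hu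
  have hD : ndet (dgN δ : GN (3 * E)) = 1 := by rw [ndet_dgN, hδ]
  have h1 : ∀ y : CP 3, cmul (prER (1 : ER (ZMod 3))) y = y := fun y => by simp [cmul, prER]
  -- a unit lift `δ` of `u` turns `cmul u` into a twist
  have hs : spec cls (φ ∘ cmul u) = twist (spec cls φ) (dgN δ) := by
    rw [twist_spec cls φ δ hδ, h3, h1, hE]
    rfl
  simp only [FS, pairLift, pairLiftI, hs]
  rw [← integral_const_mul]
  refine integral_congr_ae (Eventually.of_forall fun w => ?_)
  simp only [Finset.mul_sum]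
  let e : G1 (3 * E) ≃ G1 (3 * E) := (Equiv.mulRight (dgN δ : GN (3 * E))).subtypeEquiv fun M => by
    simp [ndet_mul, hD]
  -- reindex by right multiplication
  conv_rhs => rw [← e.sum_comp]
  refine Finset.sum_congr rfl fun M _ => ?_
  -- equivariance under the torus produces `θ u`
  have hb := A.borel (dgN δ)⁻¹ (M.1 * dgN δ) (by
    change (!![((δ⁻¹ : (RN E)ˣ) : RN E), 0; 0, 1] : Matrix (Fin 2) (Fin 2) (RN E)).map
        (castPi E) = 1
    have hi : castPi E ((δ⁻¹ : (RN E)ˣ) : RN E) = 1 := by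
      have := congrArg (castPi E) δ.inv_mul
      rwa [map_mul, hπ, mul_one, map_one] at this
    ext i j : 1
    fin_cases i <;> fin_cases j <;> simp [hi]) (by
    change castEh E ((!![((δ⁻¹ : (RN E)ˣ) : RN E), 0; 0, 1] : Matrix (Fin 2) (Fin 2) (RN E))
        1 0) = 0
    simp) w
  rw [mul_inv_cancel_right] at hb
  have hθ : castEh E ((dgN δ)⁻¹.val 0 0) * castEh E ((dgN δ)⁻¹.val 1 1) ^ 2 = ⟨u.1, u.2⟩ := by
    change castEh E ((δ⁻¹ : (RN E)ˣ) : RN E) * castEh E (1 : RN E) ^ 2 = _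
    rw [map_one, one_pow, mul_one, ← hE]
    rfl
  rw [hθ] at hb
  rw [twist_twist (per_spec cls φ), show (e M).1 = M.1 * dgN δ from rfl, hb]
  ring

end Fermat.LT3
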