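import Fermat.Agent.LT3.Coef.Kappa

/-!
# The lifted series

`pairLift E φ ψ τ = ∫ rho0 Σ_i φ i · lat (ψ i) τ` of a pairing is the sum of the terms
`√y' e(n τ'/3) pairI φ ψ n (gs (4π y'))` with `τ' = τ / 3E`. `FS A Ψ` is the lift of the functions
of `A` paired with the twists of `Ψ`; translation and inversion act on `Ψ` by `tph` and `fou`.
-/

set_option autoImplicit false
open MeasureTheory Filter Complex
open scoped Real Classical

namespace Fermat.LT3
open Fermat.LT

variable {E : ℕ} [NeZero E]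

/-- The variable `τ / 3E`. -/
noncomputable def scl (E : ℕ) (τ : ℂ) : ℂ := τ / ((3 * E : ℕ) : ℂ)

omit [NeZero E] in
/-- The imaginary part of the scaled variable. -/
lemma scl_im (τ : ℂ) : (scl E τ).im = τ.im / (3 * E : ℕ) := Complex.div_natCast_im τ (3 * E)

/-- The scaled variable stays in the upper half plane. -/
lemma scl_im_pos {τ : ℂ} (hτ : 0 < τ.im) : 0 < (scl E τ).im := by
  rw [scl_im]
  have : (0 : ℝ) < ((3 * E : ℕ) : ℝ) := Nat.cast_pos.2 (Nat.mul_pos three_pos (NeZero.pos E))
  positivity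

variable {ι : Type*} [Fintype ι] {φ : ι → H3 → ℂ} {ψ : ι → Lz → ℂ}

/-- The integrand of the lift of a pairing. -/
noncomputable def pairLiftI (E : ℕ) [NeZero E] (φ : ι → H3 → ℂ) (ψ : ι → Lz → ℂ) (τ : ℂ)
    (w : H3) : ℂ :=
  (rho0 w : ℂ) * ∑ i, φ i w * lat (3 * E) (ψ i) τ w

/-- The integral over `H3` of the lifted integrand of a pairing. -/
noncomputable def pairLift (E : ℕ) [NeZero E] (φ : ι → H3 → ℂ) (ψ : ι → Lz → ℂ) (τ : ℂ) : ℂ :=
  ∫ w, pairLiftI E φ ψ τ w ∂hmeas

/-- The exponential `e (n σ / 3)`. -/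
noncomputable def eT (n : ℤ) (σ : ℂ) : ℂ := cexp (2 * π * I * ((n : ℂ) / 3) * σ)

/-- The absolute value of an exponential. -/
lemma norm_eT (n : ℤ) (σ : ℂ) : ‖eT n σ‖ = Real.exp (-(2 * π * ((n : ℝ) / 3) * σ.im)) := by
  rw [eT, Complex.norm_exp]
  congr 1
  simp [Complex.mul_re, Complex.div_ofNat_re, Complex.div_ofNat_im]

/-- A term of the theta series of norm `n`. -/
lemma tt_eq {X : Lz} {n : ℤ} (hX : q3 X = n) (σ : ℂ) (w : H3) :
    tt σ w (vec X) = (Real.sqrt σ.im : ℂ) * eT n σ * gs (4 * π * σ.im) (lin (vec X) w) := by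
  have hq := q3_eq X
  rw [hX] at hq
  rw [tt, eT, gs, Complex.ofReal_exp, mul_assoc (Real.sqrt σ.im : ℂ) (cexp _), ← Complex.exp_add]
  congr 2
  have hq' : (qf (vec X) : ℂ) = (n : ℂ) / 3 := by
    rw [eq_div_iff (by norm_num : (3 : ℂ) ≠ 0), mul_comm]
    exact_mod_cast hq
  rw [maj]
  push_cast
  rw [hq']
  have hσ := Complex.re_add_im σ
  linear_combination (2 * π * I * ((n : ℂ) / 3)) * hσ
    + (-2 * π * ((n : ℂ) / 3) * σ.im) * Complex.I_mul_I

/-- The part of norm `n` of the integrand. -/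
noncomputable def FIn (φ : ι → H3 → ℂ) (ψ : ι → Lz → ℂ) (σ : ℂ) (n : ℤ) (w : H3) : ℂ :=
  (rho0 w : ℂ) * ∑ M : ι, φ M w *
    ∑' X : {X : Lz // q3 X = n}, ψ M X.1 * tt σ w (vec X.1)

/-- The part of norm `n` is the exponential times the weighted height series of a Gaussian. -/
lemma FIn_eq (σ : ℂ) (n : ℤ) (w : H3) :
    FIn φ ψ σ n w = (Real.sqrt σ.im : ℂ) * eT n σ *
      ((rho0 w : ℂ) * pairSum n φ ψ (gs (4 * π * σ.im)) w) := by
  rw [FIn, pairSum, Finset.mul_sum, Finset.mul_sum, Finset.mul_sum]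
  refine Finset.sum_congr rfl fun M _ => ?_
  simp only [aM]
  rw [mul_left_comm ((Real.sqrt σ.im : ℂ) * eT n σ), mul_left_comm ((Real.sqrt σ.im : ℂ) * eT n σ),
    ← tsum_mul_left (a := (Real.sqrt σ.im : ℂ) * eT n σ)]
  congr 2
  exact tsum_congr fun X => by rw [tt_eq X.2]; ring

/-- The part of norm `n` is measurable. -/
lemma measurable_FIn (hc : ∀ i, Continuous (φ i)) {σ : ℂ} (hσ : 0 < σ.im) (n : ℤ) :
    Measurable (FIn φ ψ σ n) := by
  simp only [funext (FIn_eq σ n)]
  refine Measurable.const_mul ((Complex.measurable_ofReal.comp part_rho0.meas).mul ?_) _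
  exact Finset.measurable_sum _ fun M _ => (hc M).measurable.mul
    (measurable_aM n (decay_gs (by positivity)) (ψ M))

/-- **The expansion.** The lift of an eigen pair is the series of its functionals at Gaussians, and
its integrand is integrable. -/
theorem hasSum_pairLift (hP : IsEigPair φ ψ) (hper : ∀ i, Per (3 * E) (ψ i)) {τ : ℂ}
    (hτ : 0 < τ.im) :
    HasSum (fun n : ℤ => (Real.sqrt (scl E τ).im : ℂ) * eT n (scl E τ) *
      pairI φ ψ n (gs (4 * π * (scl E τ).im))) (pairLift E φ ψ τ) ∧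
      Integrable (pairLiftI E φ ψ τ) hmeas := by
  set σ := scl E τ with hσd
  have hσ : 0 < σ.im := scl_im_pos hτ
  obtain ⟨B, hB0, hB⟩ := hP.wbound
  obtain ⟨Cp, hCp0, hCp⟩ := hP.bound
  have hy : 0 < 2 * π * σ.im := by positivity
  obtain ⟨C, hC0, hC⟩ := exists_maj_bound hy
  -- a summable majorant, fibred by `q3`
  have hmaj : ∀ w, Summable (fun X : Lz => Real.exp (-(2 * π * σ.im * maj (vec X) w))) ∧
      ∑' X : Lz, Real.exp (-(2 * π * σ.im * maj (vec X) w))
        ≤ C * (1 + (H3.coord w).2) * (1 + ((H3.coord w).2)⁻¹) := fun w => by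
    have := hC (H3.coord w).1 (H3.coord w).2 (H3.coord_pos w)
    rwa [H3.mk_coord] at this
  set b : ℤ → H3 → ℝ := fun n w => rho0 w * ((Fintype.card (ι) : ℝ) * (Cp *
    ∑' X : {X : Lz // q3 X = n}, B *
      (Real.sqrt σ.im * Real.exp (-(2 * π * σ.im * maj (vec X.1) w)))))
  have hfib : ∀ w, HasSum (fun n : ℤ => ∑' X : {X : Lz // q3 X = n},
      B * (Real.sqrt σ.im * Real.exp (-(2 * π * σ.im * maj (vec X.1) w))))
      (B * (Real.sqrt σ.im * ∑' X : Lz, Real.exp (-(2 * π * σ.im * maj (vec X) w)))) := by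
    intro w
    have h := ((hmaj w).1.hasSum.mul_left (Real.sqrt σ.im)).mul_left B
    exact h.tsum_fiberwise q3
  have hbs : ∀ w, HasSum (fun n => b n w) (rho0 w * ((Fintype.card (ι) : ℝ) * (Cp *
      (B * (Real.sqrt σ.im * ∑' X : Lz, Real.exp (-(2 * π * σ.im * maj (vec X) w))))))) := fun w =>
    (((hfib w).mul_left Cp).mul_left _).mul_left _
  have hterm : ∀ (M : ι) w (X : Lz), ‖ψ M X * tt σ w (vec X)‖
      ≤ B * (Real.sqrt σ.im * Real.exp (-(2 * π * σ.im * maj (vec X) w))) := fun M w X => by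
    rw [norm_mul, norm_tt]
    exact mul_le_mul_of_nonneg_right (hB _ _) (by positivity)
  have hbn : ∀ n w, 0 ≤ b n w := fun n w => mul_nonneg (part_rho0.nonneg w)
    (mul_nonneg (Nat.cast_nonneg _) (mul_nonneg hCp0 (tsum_nonneg fun X => by positivity)))
  have hbd : ∀ n w, ‖FIn φ ψ σ n w‖ ≤ b n w := by
    intro n w
    rw [FIn, norm_mul, Complex.norm_real, Real.norm_of_nonneg (part_rho0.nonneg w)]
    refine mul_le_mul_of_nonneg_left ((norm_sum_le _ _).trans ((Finset.sum_le_sum
      (g := fun _ : ι => Cp * ∑' X : {X : Lz // q3 X = n},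
        B * (Real.sqrt σ.im * Real.exp (-(2 * π * σ.im * maj (vec X.1) w))))
      fun M _ => ?_).trans_eq ?_)) (part_rho0.nonneg w)
    · rw [norm_mul]
      refine mul_le_mul (hCp _ _) ?_ (norm_nonneg _) hCp0
      have hs := (((hmaj w).1.mul_left (Real.sqrt σ.im)).mul_left B).comp_injective
        (Subtype.val_injective (p := fun X : Lz => q3 X = n))
      exact tsum_of_norm_bounded hs.hasSum fun X => hterm _ _ _
    · rw [Finset.sum_const, Finset.card_univ, nsmul_eq_mul]
  -- the expansion converges pointwise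
  have hlim : ∀ w, HasSum (fun n => FIn φ ψ σ n w) (pairLiftI E φ ψ τ w) := by
    intro w
    refine (hasSum_sum fun M _ => ?_).mul_left _
    refine HasSum.mul_left _ ?_
    exact ((summable_lat (hper M) hτ w).hasSum).tsum_fiberwise q3
  set K := (Fintype.card (ι) : ℝ) * (Cp * (B * (Real.sqrt σ.im * C)))
  have hK : 0 ≤ K := by positivity
  -- and is dominated on the Siegel set
  have htot : ∀ w, ∑' n, b n w ≤ 9 * K * Sg.indicator (fun u => (H3.coord u).2) w := by
    intro w
    rw [(hbs w).tsum_eq]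
    refine le_trans ?_ (rho0_mul_le hK)
    refine mul_le_mul_of_nonneg_left ?_ (part_rho0.nonneg w)
    calc (Fintype.card (ι) : ℝ) * (Cp * (B * (Real.sqrt σ.im *
          ∑' X : Lz, Real.exp (-(2 * π * σ.im * maj (vec X) w)))))
        ≤ (Fintype.card (ι) : ℝ) * (Cp * (B * (Real.sqrt σ.im *
          (C * (1 + (H3.coord w).2) * (1 + ((H3.coord w).2)⁻¹))))) := by
          gcongr
          exact (hmaj w).2
      _ = _ := by ring
  have hmb : ∀ n, Measurable (FIn φ ψ σ n) := measurable_FIn (fun i => (hP.isEig i).cont) hσ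
  have hFIm : Measurable (pairLiftI E φ ψ τ) :=
    measurable_of_tendsto_metrizable (fun s : ℕ => Finset.measurable_sum
      (Finset.Icc (-(s : ℤ)) s) fun n _ => hmb n) (tendsto_pi_nhds.2 fun w => by
        simpa only [Finset.sum_apply, Function.comp_def] using
          (hlim w).comp Finset.tendsto_Icc_neg)
  have hint : Integrable (pairLiftI E φ ψ τ) hmeas := integrable_of_le_Sg hFIm fun w =>
    ((hlim w).norm_le_of_bounded (hbs w) fun n => hbd n w).trans
      ((hbs w).tsum_eq ▸ htot w)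
  refine ⟨?_, hint⟩
  have hbi : Integrable (fun w => ∑' n, b n w) hmeas := by
    have hm : Measurable fun w => ∑' n, b n w := by
      have e : (fun w => ∑' n, b n w) = fun w => rho0 w * ((Fintype.card (ι) : ℝ) * (Cp *
          (B * (Real.sqrt σ.im * ∑' X : Lz, Real.exp (-(2 * π * σ.im * maj (vec X) w)))))) :=
        funext fun w => (hbs w).tsum_eq
      rw [e]
      have hX : ∀ X : Lz, Measurable fun w => Real.exp (-(2 * π * σ.im * maj (vec X) w)) :=
          fun X => by
        have := (continuous_lin (vec X)).measurable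
        unfold maj
        fun_prop
      have hT : Measurable fun w => ∑' X : Lz, Real.exp (-(2 * π * σ.im * maj (vec X) w)) :=
        measurable_of_tendsto_metrizable' atTop (fun s : Finset Lz => Finset.measurable_sum s
          fun X _ => hX X) (tendsto_pi_nhds.2 fun w => by
            simpa only [Finset.sum_apply, HasSum, SummationFilter.unconditional_filter] using
              (hmaj w).1.hasSum)
      exact part_rho0.meas.mul ((((hT.const_mul _).const_mul _).const_mul _).const_mul _)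
    have h := integrable_of_le_Sg (f := fun w => ((∑' n, b n w : ℝ) : ℂ))
      (Complex.measurable_ofReal.comp hm) (C := 9 * K) fun w => by
        rw [Complex.norm_real, Real.norm_of_nonneg (tsum_nonneg fun n => hbn n w)]
        exact htot w
    exact h.re
  -- dominated convergence
  have h := hasSum_integral_of_dominated_convergence b (fun n => (hmb n).aestronglyMeasurable)
    (fun n => Eventually.of_forall (hbd n)) (Eventually.of_forall fun w => (hbs w).summable) hbi
    (Eventually.of_forall hlim)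
  refine h.congr_fun fun n => ?_
  rw [pairI, ← integral_const_mul]
  exact integral_congr_ae (Eventually.of_forall fun w => (FIn_eq σ n w).symm)

variable (A : Auto E) {Ψ : Lz → ℂ}

/-- **The lifted series.** The lift of the forms `A.Φ` paired with the twists of `Ψ`. -/
noncomputable def FS (Ψ : Lz → ℂ) (τ : ℂ) : ℂ :=
  pairLift E (fun M : G1 (3 * E) => A.Φ M.1) (fun M => twist Ψ M.1) τ

/-- Translating `τ` by one multiplies `Ψ` by its phase `tph`. -/
theorem FS_add_one (τ : ℂ) : FS A Ψ (τ + 1) = FS A (tph (3 * E) Ψ) τ := by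
  simp only [FS, pairLift, pairLiftI, lat_add_one]
  simp only [fun M : G1 (3 * E) => tph_twist Ψ M.2]

/-- Inverting `τ` replaces `Ψ` by its Fourier transform, with a weight one factor. -/
theorem FS_inv (hΨ : Per (3 * E) Ψ) {τ : ℂ} (hτ : 0 < τ.im) :
    FS A Ψ (-τ⁻¹) = -I * (Real.sqrt 3 : ℂ) / (9 * ((3 * E : ℕ) : ℂ) ^ 2) * τ *
      FS A (fou (3 * E) Ψ) τ := by
  simp only [FS, pairLift, pairLiftI]
  rw [← integral_const_mul]
  refine integral_congr_ae (Eventually.of_forall fun w => ?_)
  simp only [Finset.mul_sum]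
  refine Finset.sum_congr rfl fun M _ => ?_
  rw [lat_inv (per_twist hΨ M.1) hτ, fou_twist hΨ M.2]
  ring

omit [NeZero E] in
/-- The twist is additive in the function. -/
lemma twist_add_fun (Ψ Ψ' : Lz → ℂ) (M : GN (3 * E)) :
    twist (Ψ + Ψ') M = twist Ψ M + twist Ψ' M := rfl

omit [NeZero E] in
/-- The twist is homogeneous in the function. -/
lemma twist_smul_fun (c : ℂ) (Ψ : Lz → ℂ) (M : GN (3 * E)) :
    twist (c • Ψ) M = c • twist Ψ M := rfl

/-- The lifted series is additive in `Ψ`. -/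
theorem FS_add (hΨ : Per (3 * E) Ψ) {Ψ' : Lz → ℂ} (hΨ' : Per (3 * E) Ψ') {τ : ℂ} (hτ : 0 < τ.im) :
    FS A (Ψ + Ψ') τ = FS A Ψ τ + FS A Ψ' τ := by
  rw [FS, FS, FS, pairLift, pairLift, pairLift,
    ← integral_add (hasSum_pairLift (A.pair hΨ) (fun M => per_twist hΨ M.1) hτ).2
      (hasSum_pairLift (A.pair hΨ') (fun M => per_twist hΨ' M.1) hτ).2]
  refine integral_congr_ae (Eventually.of_forall fun w => ?_)
  simp only [pairLiftI, ← mul_add, ← Finset.sum_add_distrib]
  congr 1
  refine Finset.sum_congr rfl fun M _ => ?_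
  congr 1
  rw [twist_add_fun, lat, lat, lat,
    ← (summable_lat (per_twist hΨ M.1) hτ w).tsum_add (summable_lat (per_twist hΨ' M.1) hτ w)]
  exact tsum_congr fun X => add_mul _ _ _

/-- The lifted series is homogeneous in `Ψ`. -/
theorem FS_smul (c : ℂ) (τ : ℂ) : FS A (c • Ψ) τ = c * FS A Ψ τ := by
  rw [FS, FS, pairLift, pairLift, ← integral_const_mul]
  refine integral_congr_ae (Eventually.of_forall fun w => ?_)
  simp only [pairLiftI, Finset.mul_sum]
  refine Finset.sum_congr rfl fun M _ => ?_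
  rw [twist_smul_fun, lat, lat, ← tsum_mul_left, ← tsum_mul_left, ← tsum_mul_left, ← tsum_mul_left,
    ← tsum_mul_left]
  exact tsum_congr fun X => by simp only [Pi.smul_apply, smul_eq_mul]; ring

end Fermat.LT3
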