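import Fermat.Agent.LT3.Series.Spec
import Fermat.Agent.RM.Export

/-!
# The cusp forms of weight one attached to the special functions

`f1` is the series at `3 z` (a cusp form when its negative coefficients vanish, `HolCase`), `f2` the
companion of the conjugate function (always a cusp form). Their law is `f1_law` (from `Spec`);
`Series/Theta` bundles them as the two lifts `th1`, `th2`.
-/

set_option autoImplicit false
open Filter Set UpperHalfPlane
open scoped Real Topology ComplexConjugate MatrixGroups ModularForm Manifold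

namespace Fermat.LT3
open Fermat.LT

variable {E : ℕ} [NeZero E] (A : Auto E)

/-- The holomorphic companion is additive in the periodic function. -/
lemma gF_add {Ψ Ψ' : Lz → ℂ} (hΨ : Per (3 * E) Ψ) (hΨ' : Per (3 * E) Ψ') {τ : ℂ} (hτ : 0 < τ.im) :
    gF A (Ψ + Ψ') τ = gF A Ψ τ + gF A Ψ' τ := by
  have hs : Per (3 * E) (Ψ + Ψ') := fun X μ => by
    simp only [Pi.add_apply, hΨ X μ, hΨ' X μ]
  obtain ⟨L, hL, hg⟩ := exists_fderiv_FS A hs hτ
  obtain ⟨L₁, hL₁, hg₁⟩ := exists_fderiv_FS A hΨ hτ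
  obtain ⟨L₂, hL₂, hg₂⟩ := exists_fderiv_FS A hΨ' hτ
  have h := (hL₁.add hL₂).congr_of_eventuallyEq (f₁ := FS A (Ψ + Ψ')) (by
    filter_upwards [(isOpen_lt continuous_const Complex.continuous_im).mem_nhds hτ] with z hz
    exact FS_add A hΨ hΨ' hz)
  rw [← hg, ← hg₁, ← hg₂, hL.unique h, map_add, map_add, mul_add]

/-- The holomorphic companion is conjugate linear. -/
lemma gF_smul (c : ℂ) {Ψ : Lz → ℂ} (hΨ : Per (3 * E) Ψ) {τ : ℂ} (hτ : 0 < τ.im) :
    gF A (c • Ψ) τ = conj c * gF A Ψ τ := by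
  have hs : Per (3 * E) (c • Ψ) := fun X μ => by
    simp only [Pi.smul_apply, hΨ X μ]
  have h := gF_trans A hs hΨ (γ := 1) (k := c) (fun z _ => by simp [FS_smul]) hτ
  simpa using h

/-- The first lift: the series at `3 z`. -/
noncomputable def f1 (cls : Cl3) (φ : CP E → ℂ) (z : ℂ) : ℂ := FS A (spec cls φ) (3 * z)

/-- The second lift: the holomorphic companion of the conjugate function, at `3 z`. -/
noncomputable def f2 (cls : Cl3) (φ : CP E → ℂ) (z : ℂ) : ℂ :=
  gF A (spec cls fun x => conj (φ x)) (3 * z)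

/-- The holomorphic case: the negative coefficients vanish, so that `f1` is holomorphic. -/
def HolCase (cls : Cl3) : Prop :=
  ∀ (φ : CP E → ℂ) (n : ℤ), n < 0 → kap A (spec cls φ) n = 0

/-- `3 z` stays in the upper half plane. -/
lemma three_mul_im {z : ℂ} (hz : 0 < z.im) : 0 < (3 * z).im := by simpa using hz

/-- The scaling of `3 z` is `z / E`. -/
lemma scl_three (z : ℂ) : scl E (3 * z) = z / E := by
  have hE : (E : ℂ) ≠ 0 := by exact_mod_cast NeZero.ne E
  rw [scl]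
  push_cast
  field_simp

/-- A series with slash translates of controlled growth. -/
def Bnd (f : ℂ → ℂ) : Prop :=
  ∀ γ : SL(2, ℤ), ∃ C c : ℝ, 0 < c ∧ ∀ z : ℂ, 0 < z.im → 1 ≤ c * z.im →
    ‖f (((γ 0 0 : ℂ) * z + γ 0 1) / ((γ 1 0 : ℂ) * z + γ 1 1)) / ((γ 1 0 : ℂ) * z + γ 1 1)‖
      ≤ C * (1 + Real.sqrt (c * z.im)) * Real.exp (-(π / 3 * (c * z.im)))

/-- The series and its companion at `3 z` have slash translates of controlled growth. -/
lemma bnd_of_trans {Ψ : Lz → ℂ} (hΨ : Per (3 * E) Ψ) :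
    Bnd (fun z => FS A Ψ (3 * z)) ∧ Bnd (fun z => gF A Ψ (3 * z)) := by
  have key : ∀ γ : SL(2, ℤ), ∃ (Ψ' : Lz → ℂ) (k : ℂ) (p q r : ℤ), Per (3 * E) Ψ' ∧ 0 < p ∧ 0 < r ∧
      ∀ z : ℂ, 0 < z.im →
        FS A Ψ (3 * (((γ 0 0 : ℂ) * z + γ 0 1) / ((γ 1 0 : ℂ) * z + γ 1 1)))
            / ((γ 1 0 : ℂ) * z + γ 1 1) = k / r * FS A Ψ' ((p * z + q) / r) ∧
        gF A Ψ (3 * (((γ 0 0 : ℂ) * z + γ 0 1) / ((γ 1 0 : ℂ) * z + γ 1 1)))
            / ((γ 1 0 : ℂ) * z + γ 1 1) = conj k / r * gF A Ψ' ((p * z + q) / r) := by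
    intro γ
    -- translate to a cusp
    obtain ⟨γ', p, q, r, hp, hr, hh⟩ := exists_cusp γ
    obtain ⟨Ψ', k, hΨ', ht⟩ := exists_trans A γ' Ψ hΨ
    refine ⟨Ψ', k, p, q, r, hΨ', hp, hr, fun z hz => ?_⟩
    obtain ⟨hden, harg⟩ := hh z hz
    set σ := ((p : ℂ) * z + q) / r with hσd
    have hσ : 0 < σ.im := by
      rw [hσd, Complex.div_intCast_im]
      simp
      positivity
    have hd := denom_ne γ' hσ
    have hr0 : (r : ℂ) ≠ 0 := Int.cast_ne_zero.2 hr.ne'
    rw [harg, hden, ht σ hσ, gF_trans A hΨ hΨ' ht hσ]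
    constructor <;> field_simp
  have conv : ∀ (γ : SL(2, ℤ)), ∃ (Ψ' : Lz → ℂ) (C c : ℝ), Per (3 * E) Ψ' ∧ 0 < c ∧
      ∀ z : ℂ, 0 < z.im → 1 ≤ c * z.im →
        ‖FS A Ψ (3 * (((γ 0 0 : ℂ) * z + γ 0 1) / ((γ 1 0 : ℂ) * z + γ 1 1)))
            / ((γ 1 0 : ℂ) * z + γ 1 1)‖
          ≤ C * (1 + Real.sqrt (c * z.im)) * Real.exp (-(π / 3 * (c * z.im))) ∧
        ‖gF A Ψ (3 * (((γ 0 0 : ℂ) * z + γ 0 1) / ((γ 1 0 : ℂ) * z + γ 1 1)))
            / ((γ 1 0 : ℂ) * z + γ 1 1)‖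
          ≤ C * (1 + Real.sqrt (c * z.im)) * Real.exp (-(π / 3 * (c * z.im))) := by
    intro γ
    -- decay at the cusp
    obtain ⟨Ψ', k, p, q, r, hΨ', hp, hr, h⟩ := key γ
    obtain ⟨C, hC⟩ := exists_decay (subExp_kap A hΨ')
    have hr' : (0 : ℝ) < r := Int.cast_pos.2 hr
    have hN : (0 : ℝ) < ((3 * E : ℕ) : ℝ) := Nat.cast_pos.2 (Nat.mul_pos three_pos (NeZero.pos E))
    refine ⟨Ψ', ‖k‖ / r * C, p / (r * ((3 * E : ℕ) : ℝ)), hΨ', by positivity, fun z hz h1 => ?_⟩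
    have him : (scl E (((p : ℂ) * z + q) / r)).im = p / (r * ((3 * E : ℕ) : ℝ)) * z.im := by
      rw [scl_im, Complex.div_intCast_im]
      simp
      field_simp
    have hσ : 0 < (((p : ℂ) * z + q) / r).im := by
      rw [Complex.div_intCast_im]; simp; positivity
    obtain ⟨hF, hG⟩ := hC (scl E (((p : ℂ) * z + q) / r)) (him ▸ h1)
    rw [him] at hF hG
    have hC0 : 0 ≤ C := by
      have := (norm_nonneg _).trans hG
      exact nonneg_of_mul_nonneg_left this (Real.exp_pos _)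
    have hnr : ‖(r : ℂ)‖ = r := by rw [Complex.norm_intCast, abs_of_pos hr']
    obtain ⟨e1, e2⟩ := h z hz
    rw [e1, e2, norm_mul, norm_mul, norm_div, norm_div, RCLike.norm_conj, hnr]
    set X := (p : ℝ) / (r * ((3 * E : ℕ) : ℝ)) * z.im
    have hF' : ‖FS A Ψ' (((p : ℂ) * z + q) / r)‖
        ≤ C * (1 + Real.sqrt X) * Real.exp (-(π / 3 * X)) := by rw [FS_eq A hΨ' hσ]; exact hF
    have hG' : ‖gF A Ψ' (((p : ℂ) * z + q) / r)‖
        ≤ C * (1 + Real.sqrt X) * Real.exp (-(π / 3 * X)) :=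
      hG.trans (mul_le_mul_of_nonneg_right (le_mul_of_one_le_right hC0
        (le_add_of_nonneg_right (Real.sqrt_nonneg _))) (Real.exp_pos _).le)
    exact ⟨(mul_le_mul_of_nonneg_left hF' (by positivity)).trans_eq (by ring),
      (mul_le_mul_of_nonneg_left hG' (by positivity)).trans_eq (by ring)⟩
  refine ⟨fun γ => ?_, fun γ => ?_⟩ <;> obtain ⟨Ψ', C, c, -, hc, h⟩ := conv γ
  · exact ⟨C, c, hc, fun z hz h1 => (h z hz h1).1⟩
  · exact ⟨C, c, hc, fun z hz h1 => (h z hz h1).2⟩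

/-- The action on the upper half plane in coordinates. -/
lemma coe_smul_SL (γ : SL(2, ℤ)) (z : ℍ) :
    ((γ • z : ℍ) : ℂ) = ((γ 0 0 : ℂ) * z + γ 0 1) / ((γ 1 0 : ℂ) * z + γ 1 1) := by
  rw [UpperHalfPlane.coe_specialLinearGroup_apply]
  simp

/-- The weight one slash of a function at a point. -/
lemma slash_one_apply (f : ℂ → ℂ) (γ : SL(2, ℤ)) (z : ℍ) :
    ((fun z : ℍ => f z) ∣[(1 : ℤ)] γ) z
      = f (((γ 0 0 : ℂ) * z + γ 0 1) / ((γ 1 0 : ℂ) * z + γ 1 1)) / ((γ 1 0 : ℂ) * z + γ 1 1) := by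
  rw [ModularForm.SL_slash_apply, coe_smul_SL, zpow_neg, zpow_one, div_eq_mul_inv]
  rfl

/-- A series of controlled growth tends to zero at every cusp. -/
lemma isZeroAtImInfty_of_bnd {f : ℂ → ℂ} (hf : Bnd f) (γ : SL(2, ℤ)) :
    IsZeroAtImInfty ((fun z : ℍ => f z) ∣[(1 : ℤ)] γ) := by
  obtain ⟨C, c, hc, h⟩ := hf γ
  -- the majorant tends to `0`
  have ht : Tendsto (fun y : ℝ => C * (1 + Real.sqrt (c * y)) * Real.exp (-(π / 3 * (c * y))))
      atTop (𝓝 0) := by
    have hk : Tendsto (fun y : ℝ => π / 3 * (c * y)) atTop atTop :=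
      Tendsto.const_mul_atTop (by positivity) (Tendsto.const_mul_atTop hc tendsto_id)
    have h2 : Tendsto (fun u : ℝ => 2 * |C| * ((1 + 3 / π * u) * Real.exp (-u))) atTop (𝓝 0) := by
      have a := (Real.tendsto_pow_mul_exp_neg_atTop_nhds_zero 0)
      have b := (Real.tendsto_pow_mul_exp_neg_atTop_nhds_zero 1).const_mul (3 / π)
      have := (a.add b).const_mul (2 * |C|)
      simp only [pow_zero, one_mul, pow_one, mul_zero, add_zero] at this
      refine this.congr fun u => ?_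
      ring
    refine squeeze_zero_norm' ?_ (h2.comp hk)
    filter_upwards [eventually_ge_atTop (0 : ℝ)] with y hy
    have hu : 0 ≤ c * y := mul_nonneg hc.le hy
    rw [norm_mul, norm_mul, Real.norm_of_nonneg (Real.exp_pos _).le, Real.norm_eq_abs,
      Real.norm_of_nonneg (by positivity), Function.comp_apply,
      show 3 / π * (π / 3 * (c * y)) = c * y by field_simp, mul_assoc (2 : ℝ),
      show 2 * (|C| * ((1 + c * y) * Real.exp (-(π / 3 * (c * y)))))
        = |C| * (2 * (1 + c * y)) * Real.exp (-(π / 3 * (c * y))) by ring]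
    gcongr
    nlinarith [Real.sqrt_nonneg (c * y), Real.mul_self_sqrt hu]
  rw [UpperHalfPlane.isZeroAtImInfty_iff]
  intro ε hε
  obtain ⟨Y, hY⟩ := (Metric.tendsto_atTop.1 ht ε hε)
  -- and it applies once `c * im z ≥ 1`
  refine ⟨max Y (1 / c), fun z hz => ?_⟩
  have h1 : 1 ≤ c * (z : ℂ).im := by
    have := (div_le_iff₀' hc).1 ((le_max_right _ _).trans hz)
    exact this
  rw [slash_one_apply]
  refine (h z z.im_pos h1).trans ?_
  have := hY z.im ((le_max_left _ _).trans hz)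
  rw [Real.dist_eq, sub_zero] at this
  exact le_trans (le_abs_self _) this.le

/-- A function differentiable on the upper half plane is holomorphic on `ℍ`. -/
lemma mdiff_of_diffOn {f : ℂ → ℂ} (hf : DifferentiableOn ℂ f {z | 0 < z.im}) :
    MDiff fun z : ℍ => f z := by
  rw [UpperHalfPlane.mdifferentiable_iff]
  refine hf.congr fun z hz => ?_
  simp [UpperHalfPlane.ofComplex_apply_of_im_pos hz]

/-- In the holomorphic case the first lift is differentiable. -/
lemma diffOn_f1 {cls : Cl3} (h : HolCase A cls) (φ : CP E → ℂ) :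
    DifferentiableOn ℂ (f1 A cls φ) {z | 0 < z.im} := by
  intro z hz
  refine DifferentiableAt.differentiableWithinAt ?_
  obtain ⟨L, hL, hg⟩ := exists_fderiv_FS A (per_spec cls φ) (three_mul_im hz)
  have h0 : gF A (spec cls φ) (3 * z) = 0 := by
    simp only [gF, GG, gtm]
    refine (tsum_congr fun n => ?_).trans tsum_zero
    split_ifs with hn
    · simp [h φ n hn]
    · rfl
  have hd : dbarL L = 0 := by
    rw [h0, mul_eq_zero] at hg
    rcases hg with hg | hg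
    · exact absurd hg (Complex.ofReal_ne_zero.2 (three_mul_im hz).ne')
    · exact (map_eq_zero _).1 hg
  have hD : DifferentiableAt ℂ (FS A (spec cls φ)) (3 * z) := by
    refine differentiableAt_complex_iff_differentiableAt_real.2 ⟨hL.differentiableAt, ?_⟩
    rw [hL.fderiv, smul_eq_mul]
    rw [dbarL_apply] at hd
    have := (mul_eq_zero.1 hd).resolve_left (by norm_num)
    linear_combination (-Complex.I) * this + L Complex.I * Complex.I_mul_I
  exact hD.comp z (differentiableAt_id.const_mul 3)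

/-- The second lift is differentiable. -/
lemma diffOn_f2 (cls : Cl3) (φ : CP E → ℂ) :
    DifferentiableOn ℂ (f2 A cls φ) {z | 0 < z.im} := by
  intro z hz
  refine DifferentiableAt.differentiableWithinAt ?_
  have h1 : DifferentiableAt ℂ (fun z : ℂ => scl E (3 * z)) z := by unfold scl; fun_prop
  change DifferentiableAt ℂ (fun w => GG (kap A (spec cls fun x => conj (φ x))) (scl E (3 * w))) z
  exact DifferentiableAt.comp (f := fun w : ℂ => scl E (3 * w)) z
    (differentiableAt_GG (subExp_kap A (per_spec cls fun x => conj (φ x)))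
      (scl_im_pos (three_mul_im hz))) h1

variable [Fact (Nat.Coprime E 3)]

/-- Both lifts transform under `Γ₁(27)` by the operators. -/
lemma f1_law (cls : Cl3) (φ : CP E → ℂ) {γ : SL(2, ℤ)} (hγ : InG27 γ) {z : ℂ} (hz : 0 < z.im) :
    f1 A cls φ (((γ 0 0 : ℂ) * z + γ 0 1) / ((γ 1 0 : ℂ) * z + γ 1 1))
      = ((γ 1 0 : ℂ) * z + γ 1 1) * f1 A cls (wW γ φ) z ∧
    f2 A cls φ (((γ 0 0 : ℂ) * z + γ 0 1) / ((γ 1 0 : ℂ) * z + γ 1 1))
      = ((γ 1 0 : ℂ) * z + γ 1 1) * f2 A cls (fun x => conj (wW γ (fun y => conj (φ y)) x)) z := by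
  obtain ⟨c, hc⟩ := hγ.three_dvd
  have e : (γ 1 0 / 3 : ℤ) = c := by omega
  have hσ : 0 < (3 * z).im := three_mul_im hz
  have harg : ((γ 0 0 : ℂ) * (3 * z) + 3 * (γ 0 1 : ℂ)) / ((c : ℂ) * (3 * z) + γ 1 1)
      = 3 * (((γ 0 0 : ℂ) * z + γ 0 1) / ((γ 1 0 : ℂ) * z + γ 1 1)) := by
    rw [hc, ← mul_div_assoc]
    push_cast
    congr 1 <;> ring
  have hden : (c : ℂ) * (3 * z) + γ 1 1 = (γ 1 0 : ℂ) * z + γ 1 1 := by rw [hc]; push_cast; ring
  have k1 : ∀ ψ : CP E →
      ℂ, FS A (spec cls ψ) (3 * (((γ 0 0 : ℂ) * z + γ 0 1) / ((γ 1 0 : ℂ) * z + γ 1 1)))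
      = ((γ 1 0 : ℂ) * z + γ 1 1) * FS A (spec cls (wW γ ψ)) (3 * z) := fun ψ => by
    have h := trans_spec A cls ψ hγ (3 * z) hσ
    simp only [conj3, Matrix.of_apply, Matrix.cons_val', Matrix.cons_val_zero, Matrix.cons_val_one,
      Matrix.empty_val', Matrix.cons_val_fin_one, e, one_mul] at h
    push_cast at h
    rwa [harg, hden] at h
  have k2 : ∀ ψ : CP E →
      ℂ, gF A (spec cls ψ) (3 * (((γ 0 0 : ℂ) * z + γ 0 1) / ((γ 1 0 : ℂ) * z + γ 1 1)))
      = ((γ 1 0 : ℂ) * z + γ 1 1) * gF A (spec cls (wW γ ψ)) (3 * z) := fun ψ => by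
    have h := gF_trans A (per_spec cls ψ) (per_spec cls _) (trans_spec A cls ψ hγ) hσ
    simp only [conj3, Matrix.of_apply, Matrix.cons_val', Matrix.cons_val_zero, Matrix.cons_val_one,
      Matrix.empty_val', Matrix.cons_val_fin_one, e, one_mul, map_one] at h
    push_cast at h
    rwa [harg, hden] at h
  refine ⟨k1 φ, ?_⟩
  rw [f2, f2, k2]
  simp only [Complex.conj_conj]

end Fermat.LT3
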