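import Fermat.Agent.LT3.Series.Term
import Mathlib.LinearAlgebra.Matrix.FixedDetMatrices

/-!
# Laws of the lifted series and of its holomorphic companion

The closed form of a lift, the companion of a transform (`TransF`) and the closure of a family under
`SL₂(ℤ)` are stated for arbitrary pairings, so that they also serve `LTG.W1`.
-/

set_option autoImplicit false
open Complex Filter Set
open scoped Real Topology ComplexConjugate MatrixGroups

namespace Fermat.LT3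
open Fermat.LT

variable {E : ℕ} [NeZero E]

section Pairing

variable {ι : Type*} [Fintype ι] {φ : ι → H3 → ℂ} {ψ : ι → Lz → ℂ}

/-- The lift of a pairing in closed form, if the norm zero contributes nothing. -/
theorem pairLift_eq (hP : IsEigPair φ ψ) (hper : ∀ i, Per (3 * E) (ψ i))
    (h0 : ∀ F, Samp.Decay F → pairI φ ψ 0 F = 0) {τ : ℂ} (hτ : 0 < τ.im) :
    pairLift E φ ψ τ = GS (pairCoef φ ψ) (scl E τ) := by
  set σ := scl E τ
  have hσ : 0 < σ.im := scl_im_pos hτ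
  have ha : (0 : ℝ) < 4 * π * σ.im := by positivity
  rw [GS, ← (hasSum_pairLift hP hper hτ).1.tsum_eq]
  refine tsum_congr fun n => ?_
  rcases lt_trichotomy 0 n with hn | hn | hn
  · rw [trm, if_pos hn, pairI_pos hP hn (decay_gs ha) (isEvenF_gs _), integral_gs]
    have h : Real.sqrt σ.im * Real.sqrt (π / (4 * π * σ.im)) = 1 / 2 := by
      rw [← Real.sqrt_mul hσ.le, show σ.im * (π / (4 * π * σ.im)) = (1 / 2) ^ 2 by field_simp; ring,
        Real.sqrt_sq (by norm_num)]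
    have h' := congrArg (fun x : ℝ => (x : ℂ)) h
    push_cast at h'
    linear_combination (pairCoef φ ψ n * eT n σ) * h'
  · subst hn
    rw [h0 _ (decay_gs ha)]
    simp [trm]
  · rw [trm, if_neg (not_lt.2 hn.le), if_pos hn, pairI_neg hP hn (decay_gs ha) (isEvenF_gs _),
      negI_gs, negG_eq, sq_cn hn, radR, an,
      show 4 * π * σ.im * (-(n : ℝ) / 3) = 4 * π * (-(n : ℝ) / 3) * σ.im by ring]
    push_cast
    ring

end Pairing

/-- After multiplication by `h` the antiholomorphic derivative gains a factor `conj h`. -/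
lemma dbarL_comp_smul (L : ℂ →L[ℝ] ℂ) (h : ℂ) :
    dbarL (L.comp (h • (1 : ℂ →L[ℝ] ℂ))) = conj h * dbarL L := by
  have e : ∀ z : ℂ, L z = (z.re : ℂ) * L 1 + (z.im : ℂ) * L I := fun z => by
    conv_lhs => rw [← Complex.re_add_im z]
    rw [map_add, show (z.re : ℂ) = z.re • (1 : ℂ) by simp,
      show (z.im : ℂ) * I = z.im • I by simp, map_smul, map_smul]
    simp
  have hc : conj h = (h.re : ℂ) - h.im * I := by apply Complex.ext <;> simp
  rw [dbarL_apply, dbarL_apply, hc]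
  simp only [ContinuousLinearMap.comp_apply, smul_apply,
    one_apply_eq_self, smul_eq_mul, mul_one]
  rw [e h, e (h * I)]
  simp only [Complex.mul_re, Complex.mul_im, Complex.I_re, Complex.I_im]
  push_cast
  linear_combination (h.im * L I / 2) * Complex.I_mul_I

/-- Differentiability of a series given in closed form. -/
theorem exists_fderiv_of_eq_GS {c : ℤ → ℂ} (hc : SubExp c) {f : ℂ → ℂ}
    (h : ∀ z : ℂ, 0 < z.im → f z = GS c (scl E z)) {τ : ℂ} (hτ : 0 < τ.im) :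
    ∃ L, HasFDerivAt f L τ ∧ (τ.im : ℂ) * conj (dbarL L) = GG c (scl E τ) := by
  obtain ⟨L, hL, hg⟩ := hasFDerivAt_GS hc (scl_im_pos (E := E) hτ)
  have hs : HasFDerivAt (scl E) ((1 / ((3 * E : ℕ) : ℂ)) • (1 : ℂ →L[ℝ] ℂ)) τ :=
    ((hasDerivAt_id τ).div_const ((3 * E : ℕ) : ℂ)).complexToReal_fderiv
  refine ⟨_, (hL.comp τ hs).congr_of_eventuallyEq ?_, ?_⟩
  · filter_upwards [(isOpen_lt continuous_const Complex.continuous_im).mem_nhds hτ] with z hz
    exact h z hz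
  · rw [dbarL_comp_smul, ← hg, map_mul, Complex.conj_conj, scl_im]
    push_cast
    ring

/-- `f'` is the transform of `f` by `γ`. -/
def TransF (γ : SL(2, ℤ)) (f f' : ℂ → ℂ) (k : ℂ) : Prop :=
  ∀ τ : ℂ, 0 < τ.im → f (((γ 0 0 : ℂ) * τ + γ 0 1) / ((γ 1 0 : ℂ) * τ + γ 1 1))
    = k * ((γ 1 0 : ℂ) * τ + γ 1 1) * f' τ

/-- The companions of transforms obey the conjugate law. -/
theorem TransF.companion {γ : SL(2, ℤ)} {f f' : ℂ → ℂ} {k : ℂ} (h : TransF γ f f' k) {τ : ℂ}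
    (hτ : 0 < τ.im) {g g' : ℂ}
    (hf : ∃ L, HasFDerivAt f L (((γ 0 0 : ℂ) * τ + γ 0 1) / ((γ 1 0 : ℂ) * τ + γ 1 1)) ∧
      ((((γ 0 0 : ℂ) * τ + γ 0 1) / ((γ 1 0 : ℂ) * τ + γ 1 1)).im : ℂ) * conj (dbarL L) = g)
    (hf' : ∃ L, HasFDerivAt f' L τ ∧ (τ.im : ℂ) * conj (dbarL L) = g') :
    g = conj k * ((γ 1 0 : ℂ) * τ + γ 1 1) * g' := by
  set D := (γ 1 0 : ℂ) * τ + γ 1 1 with hD
  have hD0 : D ≠ 0 := denom_ne γ hτ
  obtain ⟨L, hL, hg⟩ := hf
  obtain ⟨L', hL', hg'⟩ := hf'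
  -- Differentiate both sides of the transformation law at `τ`.
  have hh : HasFDerivAt (fun z : ℂ => ((γ 0 0 : ℂ) * z + γ 0 1) / ((γ 1 0 : ℂ) * z + γ 1 1))
      ((1 / D ^ 2) • (1 : ℂ →L[ℝ] ℂ)) τ := by
    have h1 := (((hasDerivAt_id τ).const_mul (γ 0 0 : ℂ)).add_const (γ 0 1 : ℂ)).div
      (((hasDerivAt_id τ).const_mul (γ 1 0 : ℂ)).add_const (γ 1 1 : ℂ)) hD0
    refine (h1.congr_deriv ?_).complexToReal_fderiv
    have hdet := congrArg (fun z : ℤ => (z : ℂ)) γ.det_coe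
    simp only [Matrix.det_fin_two] at hdet
    push_cast at hdet
    simp only [id, mul_one]
    rw [hD]
    congr 1
    linear_combination hdet
  have h2 := hL.comp τ hh
  have h3 : HasFDerivAt (fun z : ℂ => k * ((γ 1 0 : ℂ) * z + γ 1 1) * f' z)
      ((k * D) • L' + f' τ • ((k * (γ 1 0 : ℂ)) • (1 : ℂ →L[ℝ] ℂ))) τ := by
    have h4 : HasDerivAt (fun z : ℂ => k * ((γ 1 0 : ℂ) * z + γ 1 1)) (k * (γ 1 0 : ℂ)) τ := by
      simpa using (((hasDerivAt_id τ).const_mul (γ 1 0 : ℂ)).add_const (γ 1 1 : ℂ)).const_mul k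
    exact h4.complexToReal_fderiv.mul hL'
  have he := (h2.congr_of_eventuallyEq (f₁ := fun z : ℂ => k * ((γ 1 0 : ℂ) * z + γ 1 1) * f' z)
    (by filter_upwards [(isOpen_lt continuous_const Complex.continuous_im).mem_nhds hτ] with z hz
        exact (h z hz).symm)).unique h3
  -- Only `f` and `f'` contribute to the antiholomorphic parts.
  have hd := congrArg dbarL he
  rw [dbarL_comp_smul] at hd
  have e2 : dbarL ((k * D) • L' + f' τ • ((k * (γ 1 0 : ℂ)) • (1 : ℂ →L[ℝ] ℂ)))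
      = k * D * dbarL L' := by
    rw [dbarL_apply, dbarL_apply]
    simp
    linear_combination (f' τ * k * (γ 1 0 : ℂ) / 2) * Complex.I_mul_I
  rw [e2] at hd
  have hd' := congrArg conj hd
  simp only [map_mul, map_div₀, map_one, map_pow, Complex.conj_conj] at hd'
  -- Conjugate, and use the transformation of the imaginary part.
  rw [← hg, ← hg', im_mob_eq]
  have hn : (Complex.normSq D : ℂ) = D * conj D := (Complex.mul_conj D).symm
  have hDc : conj D ≠ 0 := (map_ne_zero _).2 hD0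
  rw [Complex.ofReal_div, hn, show conj (dbarL L) = conj k * conj D * conj (dbarL L') * D ^ 2 by
    rw [← hd']; field_simp]
  field_simp

/-- **All of `SL₂(ℤ)`**: a family of series closed under translation and inversion is closed
under every transform. -/
theorem exists_transF {α : Type*} {P : α → Prop} {F : α → ℂ → ℂ} {T T' S : α → α} {c : ℂ}
    (hT : ∀ x, P x → P (T x)) (hT' : ∀ x, P x → P (T' x)) (hS : ∀ x, P x → P (S x))
    (hTT : ∀ x, T (T' x) = x) (hadd : ∀ x τ, F x (τ + 1) = F (T x) τ)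
    (hinv : ∀ x, P x → ∀ τ : ℂ, 0 < τ.im → F x (-τ⁻¹) = c * τ * F (S x) τ) (γ : SL(2, ℤ)) :
    ∀ x, P x → ∃ x' k, P x' ∧ TransF γ (F x) (F x') k := by
  set Q : SL(2, ℤ) → Prop := fun γ => ∀ x, P x → ∃ x' k, P x' ∧ TransF γ (F x) (F x') k
  -- the property is multiplicative
  have hmul : ∀ a b, Q a → Q b → Q (a * b) := by
    intro a b ha hb x hx
    obtain ⟨x₁, k₁, h₁, t₁⟩ := ha x hx
    obtain ⟨x₂, k₂, h₂, t₂⟩ := hb x₁ h₁
    refine ⟨x₂, k₁ * k₂, h₂, fun τ hτ => ?_⟩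
    set σ := ((b 0 0 : ℂ) * τ + b 0 1) / ((b 1 0 : ℂ) * τ + b 1 1) with hσ
    rw [row_mul_mob a b hτ, row_mul_mob a b hτ, mul_div_mul_right _ _ (denom_ne b hτ),
      t₁ σ (im_mob b hτ), hσ, t₂ τ hτ]
    ring
  have hQT : Q ModularGroup.T := fun x hx => ⟨T x, 1, hT x hx, fun τ _ => by
    simp [ModularGroup.coe_T, hadd x τ]⟩
  have hQS : Q ModularGroup.S := fun x hx => ⟨S x, c, hS x hx, fun τ hτ => by
    rw [show ((ModularGroup.S 0 0 : ℂ) * τ + ModularGroup.S 0 1)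
        / ((ModularGroup.S 1 0 : ℂ) * τ + ModularGroup.S 1 1) = -τ⁻¹ by
      simp [ModularGroup.coe_S, neg_div], hinv x hx τ hτ]
    simp [ModularGroup.coe_S]⟩
  have h1 : Q 1 := fun x hx => ⟨x, 1, hx, fun τ _ => by simp⟩
  have hTi : Q ModularGroup.T⁻¹ := fun x hx => by
    refine ⟨T' x, 1, hT' x hx, fun τ _ => ?_⟩
    simp
    have h := hadd (T' x) (τ + -1)
    rw [hTT, neg_add_cancel_right] at h
    exact h.symm
  have hSi : Q ModularGroup.S⁻¹ := by
    have e : ModularGroup.S⁻¹ = ModularGroup.S * ModularGroup.S * ModularGroup.S := by decide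
    rw [e]
    exact hmul _ _ (hmul _ _ hQS hQS) hQS
  -- `S` and `T` generate
  have hmem : γ ∈ Subgroup.closure ({ModularGroup.S, ModularGroup.T} : Set SL(2, ℤ)) := by
    rw [SpecialLinearGroup.SL2Z_generators]; exact Subgroup.mem_top γ
  refine Subgroup.closure_induction'' (p := fun x _ => Q x) ?_ ?_ h1
    (fun x y _ _ => hmul x y) hmem
  · rintro x (rfl | rfl)
    · exact hQS
    · exact hQT
  · rintro x (rfl | rfl)
    · exact hSi
    · exact hTi

variable (A : Auto E) {Ψ Ψ' : Lz → ℂ}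

/-- The coefficients grow subexponentially. -/
lemma subExp_kap (hΨ : Per (3 * E) Ψ) : SubExp (kap A Ψ) := fun _ hε => exists_kap_bound A hΨ hε

/-- **The series in closed form.** The lift is the series `GS` of the coefficients `kap` in the
scaled variable. -/
theorem FS_eq (hΨ : Per (3 * E) Ψ) {τ : ℂ} (hτ : 0 < τ.im) :
    FS A Ψ τ = GS (kap A Ψ) (scl E τ) :=
  pairLift_eq (A.pair hΨ) (fun M => per_twist hΨ M.1) (fun _ hF => cI_zero A hΨ hF) hτ

/-- The holomorphic companion. -/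
noncomputable def gF (Ψ : Lz → ℂ) (τ : ℂ) : ℂ := GG (kap A Ψ) (scl E τ)

/-- The series is differentiable and `Im τ` times the conjugate of its `∂̄` is the companion. -/
theorem exists_fderiv_FS (hΨ : Per (3 * E) Ψ) {τ : ℂ} (hτ : 0 < τ.im) :
    ∃ L, HasFDerivAt (FS A Ψ) L τ ∧ (τ.im : ℂ) * conj (dbarL L) = gF A Ψ τ :=
  exists_fderiv_of_eq_GS (subExp_kap A hΨ) (fun _ hz => FS_eq A hΨ hz) hτ

/-- `Ψ'` is the transform of `Ψ` by `γ`. -/
def Trans (γ : SL(2, ℤ)) (Ψ Ψ' : Lz → ℂ) (k : ℂ) : Prop := TransF γ (FS A Ψ) (FS A Ψ') k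

/-- **The companion obeys the conjugate law.** -/
theorem gF_trans (hΨ : Per (3 * E) Ψ) (hΨ' : Per (3 * E) Ψ') {γ : SL(2, ℤ)} {k : ℂ}
    (h : Trans A γ Ψ Ψ' k) {τ : ℂ} (hτ : 0 < τ.im) :
    gF A Ψ (((γ 0 0 : ℂ) * τ + γ 0 1) / ((γ 1 0 : ℂ) * τ + γ 1 1))
      = conj k * ((γ 1 0 : ℂ) * τ + γ 1 1) * gF A Ψ' τ :=
  TransF.companion h hτ (exists_fderiv_FS A hΨ (im_mob γ hτ)) (exists_fderiv_FS A hΨ' hτ)

/-- Multiplying by the inverse translation phase preserves periodicity. -/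
lemma per_tphInv (hΨ : Per (3 * E) Ψ) :
    Per (3 * E) fun X => ee (3 * (3 * E)) (-(q3 X : ZMod (3 * (3 * E)))) * Ψ X := fun X μ => by
  have h := (Per.tph (Ψ := fun _ => (1 : ℂ)) (N := 3 * E) fun _ _ => rfl) X μ
  simp only [tph, mul_one] at h
  have hi : ∀ z : ZMod (3 * (3 * E)), ee (3 * (3 * E)) (-z) = (ee (3 * (3 * E)) z)⁻¹ := fun z => by
    refine eq_inv_of_mul_eq_one_left ?_
    rw [← ee_add, neg_add_cancel, ee_zero]
  simp only [hi, h, hΨ X μ]

/-- The inverse phase undoes the phase. -/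
lemma tph_tphInv (Ψ : Lz → ℂ) :
    tph (3 * E) (fun X => ee (3 * (3 * E)) (-(q3 X : ZMod (3 * (3 * E)))) * Ψ X) = Ψ := by
  funext X
  rw [tph, ← mul_assoc, ← ee_add, add_neg_cancel, ee_zero, one_mul]

/-- **All of `SL₂(ℤ)`**, on periodic functions. -/
theorem exists_trans (γ : SL(2, ℤ)) : ∀ Ψ : Lz → ℂ, Per (3 * E) Ψ →
    ∃ Ψ' k, Per (3 * E) Ψ' ∧ Trans A γ Ψ Ψ' k :=
  exists_transF (F := FS A) (T := tph (3 * E)) (S := fou (3 * E)) (fun _ h => h.tph)
    (fun _ h => per_tphInv h) (fun Ψ _ => per_fou Ψ) tph_tphInv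
    (fun _ τ => FS_add_one A τ) (fun _ h _ hτ => FS_inv A h hτ) γ

/-- `3 (γ τ) = γ' ((p τ + q) / r)` for some `γ'`, with a factor `r` between the
denominators. -/
theorem exists_cusp (γ : SL(2, ℤ)) : ∃ (γ' : SL(2, ℤ)) (p q r : ℤ), 0 < p ∧ 0 < r ∧
    ∀ τ : ℂ, 0 < τ.im →
      ((γ 1 0 : ℂ) * τ + γ 1 1) = r * ((γ' 1 0 : ℂ) * ((p * τ + q) / r) + γ' 1 1) ∧
      3 * (((γ 0 0 : ℂ) * τ + γ 0 1) / ((γ 1 0 : ℂ) * τ + γ 1 1))
        = ((γ' 0 0 : ℂ) * ((p * τ + q) / r) + γ' 0 1) /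
          ((γ' 1 0 : ℂ) * ((p * τ + q) / r) + γ' 1 1) := by
  have hdet := γ.det_coe
  rw [Matrix.det_fin_two] at hdet
  by_cases h : (3 : ℤ) ∣ γ 1 0
  · -- `3` divides the lower left entry
    obtain ⟨c, hc⟩ := h
    refine ⟨⟨!![γ 0 0, 3 * γ 0 1; c, γ 1 1], by
      rw [Matrix.det_fin_two_of]; linear_combination hdet + (γ 0 1) * hc⟩, 3, 0, 1, by norm_num,
      one_pos, fun τ hτ => ?_⟩
    simp
    rw [hc]
    push_cast
    refine ⟨by ring, ?_⟩
    have := denom_ne γ hτ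
    rw [hc] at this
    push_cast at this
    field_simp
  · -- otherwise clear the lower right entry modulo three first
    obtain ⟨m, hm⟩ : (3 : ℤ) ∣ γ 1 1 - γ 1 0 * (γ 1 0 * γ 1 1) := by
      have h' : (γ 1 0 : ZMod 3) ≠ 0 := fun e =>
        h (by simpa using (ZMod.intCast_zmod_eq_zero_iff_dvd _ 3).1 e)
      suffices ((γ 1 1 - γ 1 0 * (γ 1 0 * γ 1 1) : ℤ) : ZMod 3) = 0 by
        simpa using (ZMod.intCast_zmod_eq_zero_iff_dvd _ 3).1 this
      push_cast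
      revert h'
      generalize (γ 1 0 : ZMod 3) = x
      generalize (γ 1 1 : ZMod 3) = y
      revert x y
      decide
    refine ⟨⟨!![3 * γ 0 0, γ 0 1 - γ 0 0 * (γ 1 0 * γ 1 1); γ 1 0, m], by
      rw [Matrix.det_fin_two_of]; linear_combination hdet - (γ 0 0) * hm⟩, 1, γ 1 0 * γ 1 1, 3,
      one_pos, by norm_num, fun τ hτ => ?_⟩
    simp
    have hm' : (γ 1 1 : ℂ) = (γ 1 0 : ℂ) * ((γ 1 0 : ℂ) * γ 1 1) + 3 * m := by
      have := congrArg (fun z : ℤ => (z : ℂ)) hm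
      push_cast at this
      linear_combination this
    have e : (γ 1 0 : ℂ) * τ + γ 1 1
        = 3 * ((γ 1 0 : ℂ) * ((τ + (γ 1 0 : ℂ) * γ 1 1) / 3) + m) := by
      linear_combination hm'
    refine ⟨e, ?_⟩
    rw [e]
    have h3 : ∀ a b : ℂ, 3 * (a / (3 * b)) = a / b := fun a b => by
      rw [← mul_div_assoc, mul_div_mul_left _ _ (by norm_num : (3 : ℂ) ≠ 0)]
    rw [h3]
    congr 1
    ring

end Fermat.LT3
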