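import Fermat.Agent.LT3.Series.Def

/-!
# The radial factor of the negative terms

`kB β = ∫ r sinh r exp (-β cosh² r)` satisfies `kB + 2 β kB' = -exp (-β) √(π/β)`; hence
`√y kB (4π a y)` has derivative `-exp (-4π a y) / (4 √a y)`.
-/

set_option autoImplicit false
open MeasureTheory Filter Real Set
open scoped Topology

namespace Fermat.LT3

/-- The integral of `r sinh r exp (-β cosh² r)`. -/
noncomputable def kB (β : ℝ) : ℝ := ∫ r : ℝ, r * sinh r * exp (-(β * cosh r ^ 2))

/-- The negative functional of a Gaussian is the radial integral. -/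
lemma negG_eq (c a : ℝ) : negG c a = kB (a * c ^ 2) := by
  unfold negG kB
  congr 1
  funext r
  congr 3
  ring

/-- The radial integrand is integrable. -/
lemma integrable_kB {β : ℝ} (hβ : 0 < β) :
    Integrable fun r : ℝ => r * sinh r * exp (-(β * cosh r ^ 2)) := by
  simpa using integrable_neg_weight one_pos hβ

/-- The radial integral is nonnegative. -/
lemma kB_nonneg (β : ℝ) : 0 ≤ kB β :=
  integral_nonneg fun r => mul_nonneg (mul_sinh_nonneg r) (exp_pos _).le

/-- `cosh² ≥ 1`. -/
lemma one_le_cosh_sq (r : ℝ) : 1 ≤ cosh r ^ 2 := one_le_pow₀ (Real.one_le_cosh r)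

/-- The radial integral decays at least like `exp (-β)`. -/
lemma kB_le {β₀ β : ℝ} (h₀ : 0 < β₀) (h : β₀ ≤ β) : kB β ≤ exp (-(β - β₀)) * kB β₀ := by
  rw [kB, kB, ← integral_const_mul]
  refine integral_mono (integrable_kB (h₀.trans_le h)) ((integrable_kB h₀).const_mul _) fun r => ?_
  simp only
  rw [mul_left_comm, ← exp_add]
  refine mul_le_mul_of_nonneg_left (exp_le_exp.2 ?_) (mul_sinh_nonneg r)
  nlinarith [one_le_cosh_sq r]

/-- A factor `cosh²` costs half of the exponent. -/
lemma cosh_sq_exp_le {β : ℝ} (hβ : 0 < β) (r : ℝ) :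
    cosh r ^ 2 * exp (-(β * cosh r ^ 2)) ≤ 2 / β * exp (-(β / 2 * cosh r ^ 2)) := by
  have h : β / 2 * cosh r ^ 2 ≤ exp (β / 2 * cosh r ^ 2) :=
    le_trans (by linarith) (add_one_le_exp _)
  calc cosh r ^ 2 * exp (-(β * cosh r ^ 2))
      = 2 / β * (β / 2 * cosh r ^ 2) * exp (-(β * cosh r ^ 2)) := by field_simp
    _ ≤ 2 / β * exp (β / 2 * cosh r ^ 2) * exp (-(β * cosh r ^ 2)) := by gcongr
    _ = _ := by rw [mul_assoc, ← exp_add]; congr 2; ring

/-- `exp (-β cosh² r)` lies below the Gaussian. -/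
lemma exp_cosh_sq_le {β : ℝ} (hβ : 0 < β) (r : ℝ) :
    exp (-(β * cosh r ^ 2)) ≤ exp (-β * r ^ 2) := by
  rw [exp_le_exp, neg_mul, neg_le_neg_iff]
  refine mul_le_mul_of_nonneg_left ?_ hβ.le
  rw [← sq_abs r]
  exact pow_le_pow_left₀ (abs_nonneg r) (abs_le_cosh r) 2

/-- `cosh² r exp (-β cosh² r)` lies below a Gaussian. -/
lemma cosh_exp_le {β : ℝ} (hβ : 0 < β) (r : ℝ) :
    cosh r ^ 2 * exp (-(β * cosh r ^ 2)) ≤ 2 / β * exp (-(β / 2) * r ^ 2) :=
  (cosh_sq_exp_le hβ r).trans
    (mul_le_mul_of_nonneg_left (exp_cosh_sq_le (half_pos hβ) r) (by positivity))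

/-- `cosh r exp (-β cosh² r)` is integrable. -/
lemma integrable_cosh_exp {β : ℝ} (hβ : 0 < β) :
    Integrable fun r : ℝ => cosh r * exp (-(β * cosh r ^ 2)) := by
  refine ((integrable_exp_neg_mul_sq (half_pos hβ)).const_mul (2 / β)).mono'
    (by fun_prop : Continuous _).aestronglyMeasurable (Eventually.of_forall fun r => ?_)
  rw [Real.norm_of_nonneg (mul_nonneg (cosh_pos r).le (exp_pos _).le)]
  exact (mul_le_mul_of_nonneg_right (le_self_pow₀ (Real.one_le_cosh r) two_ne_zero)
    (exp_pos _).le).trans (cosh_exp_le hβ r)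

/-- The derivative of the radial integral under the integral sign. -/
lemma hasDerivAt_kB {β : ℝ} (hβ : 0 < β) :
    Integrable (fun r : ℝ => r * sinh r * cosh r ^ 2 * exp (-(β * cosh r ^ 2))) ∧
      HasDerivAt kB (-∫ r : ℝ, r * sinh r * cosh r ^ 2 * exp (-(β * cosh r ^ 2))) β := by
  have h2 : 0 < β / 2 := half_pos hβ
  set F' : ℝ → ℝ → ℝ := fun b r => -(r * sinh r * cosh r ^ 2 * exp (-(b * cosh r ^ 2)))
  have h := hasDerivAt_integral_of_dominated_loc_of_deriv_le (μ := (volume : Measure ℝ))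
    (F := fun b r => r * sinh r * exp (-(b * cosh r ^ 2))) (F' := F')
    (s := Metric.ball β (β / 2))
    (bound := fun r => 2 / (β / 2) * (r * sinh r * exp (-(β / 2 / 2 * cosh r ^ 2))))
    (Metric.ball_mem_nhds β h2)
    (Eventually.of_forall fun b => (by fun_prop : Continuous fun r : ℝ =>
      r * sinh r * exp (-(b * cosh r ^ 2))).aestronglyMeasurable)
    (integrable_kB hβ)
    (by fun_prop : Continuous fun r : ℝ =>
      -(r * sinh r * cosh r ^ 2 * exp (-(β * cosh r ^ 2)))).aestronglyMeasurable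
    (Eventually.of_forall fun r b hb => ?_) ((integrable_kB (half_pos h2)).const_mul _)
    (Eventually.of_forall fun r b _ => ?_)
  · refine ⟨h.1.neg.congr (Eventually.of_forall fun r => neg_neg _), ?_⟩
    rw [← integral_neg]
    exact h.2
  · rw [Metric.mem_ball, Real.dist_eq, abs_lt] at hb
    simp only [F', norm_neg, Real.norm_of_nonneg (mul_nonneg (mul_nonneg (mul_sinh_nonneg r)
      (sq_nonneg _)) (exp_pos _).le)]
    have h3 : cosh r ^ 2 * exp (-(b * cosh r ^ 2))
        ≤ 2 / (β / 2) * exp (-(β / 2 / 2 * cosh r ^ 2)) := by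
      refine le_trans ?_ (cosh_sq_exp_le h2 r)
      refine mul_le_mul_of_nonneg_left (exp_le_exp.2 ?_) (sq_nonneg _)
      nlinarith [one_le_cosh_sq r]
    rw [mul_assoc (r * sinh r)]
    exact (mul_le_mul_of_nonneg_left h3 (mul_sinh_nonneg r)).trans (le_of_eq (by ring))
  · have h4 := (((hasDerivAt_id b).mul_const (cosh r ^ 2)).neg.exp).const_mul (r * sinh r)
    refine h4.congr_deriv ?_
    simp [F']
    ring

/-- The Gaussian integral in the variable `sinh r`. -/
lemma integral_cosh_exp (β : ℝ) :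
    ∫ r : ℝ, cosh r * exp (-(β * cosh r ^ 2)) = exp (-β) * sqrt (π / β) := by
  have h := integral_image_eq_integral_abs_deriv_smul (f := sinh) (f' := cosh) MeasurableSet.univ
    (fun x _ => (Real.hasDerivAt_sinh x).hasDerivWithinAt) Real.sinh_injective.injOn
    (fun s => exp (-(β * (s ^ 2 + 1))))
  rw [image_univ, Real.sinh_surjective.range_eq, setIntegral_univ, setIntegral_univ] at h
  rw [← integral_gaussian, ← integral_const_mul]
  refine Eq.trans ?_ ((h.symm.trans ?_))
  · refine integral_congr_ae (Eventually.of_forall fun r => ?_)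
    simp only [smul_eq_mul, abs_of_pos (cosh_pos r), Real.cosh_sq]
  · refine integral_congr_ae (Eventually.of_forall fun s => ?_)
    simp only [← exp_add]
    congr 1
    ring

/-- **The differential equation.** The radial integral and its derivative combine to a Gaussian
term. -/
theorem kB_ode {β : ℝ} (hβ : 0 < β) :
    kB β + 2 * β * (-∫ r : ℝ, r * sinh r * cosh r ^ 2 * exp (-(β * cosh r ^ 2)))
      = -(exp (-β) * sqrt (π / β)) := by
  obtain ⟨hi2, -⟩ := hasDerivAt_kB hβ
  -- differentiate `r * cosh r * exp (-β * cosh r ^ 2)`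
  have hd : ∀ r : ℝ, HasDerivAt (fun r => r * cosh r * exp (-(β * cosh r ^ 2)))
      (cosh r * exp (-(β * cosh r ^ 2)) + r * sinh r * exp (-(β * cosh r ^ 2))
        - 2 * β * (r * sinh r * cosh r ^ 2 * exp (-(β * cosh r ^ 2)))) r := fun r => by
    have h := ((hasDerivAt_id r).mul (Real.hasDerivAt_cosh r)).mul
      (((Real.hasDerivAt_cosh r).pow 2).const_mul β).neg.exp
    refine h.congr_deriv ?_
    simp
    ring
  have hi : Integrable fun r : ℝ => cosh r * exp (-(β * cosh r ^ 2))
      + r * sinh r * exp (-(β * cosh r ^ 2))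
      - 2 * β * (r * sinh r * cosh r ^ 2 * exp (-(β * cosh r ^ 2))) :=
    ((integrable_cosh_exp hβ).add (integrable_kB hβ)).sub (hi2.const_mul _)
  -- it tends to `0` at `±∞`
  have hlim : ∀ l : Filter ℝ, Tendsto (fun r : ℝ => r ^ 2) l atTop →
      Tendsto (fun r => r * cosh r * exp (-(β * cosh r ^ 2))) l (𝓝 0) := by
    intro l hl
    refine squeeze_zero_norm (a := fun r => 2 / β * exp (-(β / 2) * r ^ 2)) (fun r => ?_) ?_
    · rw [norm_mul, norm_mul, Real.norm_of_nonneg (cosh_pos r).le,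
        Real.norm_of_nonneg (exp_pos _).le, Real.norm_eq_abs]
      refine (mul_le_mul_of_nonneg_right ?_ (exp_pos _).le).trans (cosh_exp_le hβ r)
      rw [sq]
      exact mul_le_mul_of_nonneg_right (abs_le_cosh r) (cosh_pos r).le
    · have := (tendsto_exp_atBot.comp (hl.const_mul_atTop_of_neg
        (neg_lt_zero.2 (half_pos hβ)))).const_mul (2 / β)
      simpa using this
  have key := integral_of_hasDerivAt_of_tendsto hd hi
    (hlim atBot
      (by simpa [sq] using tendsto_id.atBot_mul_atBot₀ (tendsto_id (x := (atBot : Filter ℝ)))))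
    (hlim atTop (tendsto_pow_atTop two_ne_zero))
  -- so its derivative has integral `0`
  have e : ∫ r : ℝ, (cosh r * exp (-(β * cosh r ^ 2)) + r * sinh r * exp (-(β * cosh r ^ 2))
      - 2 * β * (r * sinh r * cosh r ^ 2 * exp (-(β * cosh r ^ 2))))
      = (∫ r : ℝ, cosh r * exp (-(β * cosh r ^ 2))) + kB β
        - 2 * β * ∫ r : ℝ, r * sinh r * cosh r ^ 2 * exp (-(β * cosh r ^ 2)) := by
    rw [← integral_const_mul, kB, ← integral_add (integrable_cosh_exp hβ) (integrable_kB hβ),
      ← integral_sub _ (hi2.const_mul _)]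
    exact (integrable_cosh_exp hβ).add (integrable_kB hβ)
  rw [e, sub_zero, integral_cosh_exp] at key
  linarith

/-- The radial factor `√y kB (4π a y)`. -/
noncomputable def radR (a y : ℝ) : ℝ := sqrt y * kB (4 * π * a * y)

/-- **Its derivative.** The derivative of `radR` is an explicit exponential. -/
theorem hasDerivAt_radR {a y : ℝ} (ha : 0 < a) (hy : 0 < y) :
    HasDerivAt (radR a) (-(exp (-(4 * π * a * y))) / (4 * sqrt a * y)) y := by
  have hβ : 0 < 4 * π * a * y := by positivity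
  have h1 := (Real.hasDerivAt_sqrt hy.ne').mul
    ((hasDerivAt_kB hβ).2.comp y ((hasDerivAt_id y).const_mul (4 * π * a)))
  refine h1.congr_deriv ?_
  have hk := kB_ode hβ
  set J := ∫ r : ℝ, r * sinh r * cosh r ^ 2 * exp (-(4 * π * a * y * cosh r ^ 2))
  have hs : sqrt (π / (4 * π * a * y)) = 1 / (2 * sqrt a * sqrt y) := by
    rw [show π / (4 * π * a * y) = (1 / 2) ^ 2 * (a * y)⁻¹ by field_simp; ring,
      Real.sqrt_mul (sq_nonneg _), Real.sqrt_sq (by norm_num), Real.sqrt_inv, Real.sqrt_mul ha.le]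
    ring
  rw [hs] at hk
  have hsy := Real.mul_self_sqrt hy.le
  simp only [mul_one, Function.comp_apply]
  calc 1 / (2 * sqrt y) * kB (4 * π * a * y) + sqrt y * (-J * (4 * π * a))
      = (kB (4 * π * a * y) + 2 * (4 * π * a * y) * -J) / (2 * sqrt y) := by
        field_simp
        linear_combination (-(8 * π * a * J)) * hsy
    _ = _ := by
        rw [hk, div_eq_div_iff (by positivity) (by positivity)]
        field_simp
        linear_combination (4 : ℝ) * hsy

/-- Above `δ` and for `a ≥ 1/3` the radial factor decays like `√y exp (-4π a y)`. -/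
lemma radR_le {δ a y : ℝ} (hδ : 0 < δ) (ha : 1 / 3 ≤ a) (hy : δ ≤ y) :
    radR a y ≤ sqrt y * (exp (4 * π * δ / 3) * kB (4 * π * δ / 3)) * exp (-(4 * π * a * y)) := by
  rw [radR, mul_assoc (sqrt y)]
  refine mul_le_mul_of_nonneg_left ((kB_le (β₀ := 4 * π * δ / 3) (by positivity) ?_).trans_eq ?_)
    (sqrt_nonneg _)
  · rw [show 4 * π * δ / 3 = 4 * π *
      (1 / 3 * δ) by ring, show 4 * π * a * y = 4 * π * (a * y) by ring]
    refine mul_le_mul_of_nonneg_left (mul_le_mul ha hy hδ.le ?_) (by positivity)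
    linarith
  · rw [neg_sub, sub_eq_add_neg, exp_add]
    ring

/-- The radial factor is nonnegative. -/
lemma radR_nonneg (a y : ℝ) : 0 ≤ radR a y := mul_nonneg (sqrt_nonneg _) (kB_nonneg _)

end Fermat.LT3
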