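import Fermat.Agent.LT3.Series.Radial

/-!
# Series with non-holomorphic radial terms

For coefficients of subexponential growth `GS c` is differentiable, `conj (Im · dbar GS c)` is the
holomorphic series `GG c`, and both tend to zero at infinity.
-/

set_option autoImplicit false
open Complex Filter Set
open scoped Real Topology ComplexConjugate

namespace Fermat.LT3

/-- Subexponential growth. -/
def SubExp (c : ℤ → ℂ) : Prop :=
  ∀ ε, 0 < ε → ∃ C, 0 ≤ C ∧ ∀ n : ℤ, ‖c n‖ ≤ C * Real.exp (ε * |(n : ℝ)|)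

variable {c : ℤ → ℂ}

/-- `|n| / 3` for negative `n`. -/
noncomputable def an (n : ℤ) : ℝ := -(n : ℝ) / 3

/-- `|n| / 3` is at least one third. -/
lemma one_third_le_an {n : ℤ} (hn : n < 0) : 1 / 3 ≤ an n := by
  have h : (n : ℝ) ≤ -1 := by exact_mod_cast (show n ≤ -1 by omega)
  unfold an
  linarith

/-- `|n| / 3` is positive. -/
lemma an_pos {n : ℤ} (hn : n < 0) : 0 < an n :=
  lt_of_lt_of_le (by norm_num) (one_third_le_an hn)

/-- The term of index `n`: `c n e (n σ / 3)`, times `1/2` if `n > 0` and a radial factor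
if `n < 0`. -/
noncomputable def trm (c : ℤ → ℂ) (n : ℤ) (σ : ℂ) : ℂ :=
  if 0 < n then c n / 2 * eT n σ
  else if n < 0 then c n * eT n σ * (radR (an n) σ.im : ℂ) else 0

/-- The holomorphic term of a negative index, from the conjugate coefficient. -/
noncomputable def gtm (c : ℤ → ℂ) (n : ℤ) (σ : ℂ) : ℂ :=
  if n < 0 then conj (c n) * (I / (8 * (Real.sqrt (an n) : ℂ))) * eT (-n) σ else 0

/-- The sum of the terms `trm`. -/
noncomputable def GS (c : ℤ → ℂ) (σ : ℂ) : ℂ := ∑' n, trm c n σ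

/-- The sum of the holomorphic terms `gtm`. -/
noncomputable def GG (c : ℤ → ℂ) (σ : ℂ) : ℂ := ∑' n, gtm c n σ

/-- `∂̄` of a linear map. -/
noncomputable def dbarL : (ℂ →L[ℝ] ℂ) →L[ℝ] ℂ :=
  (1 / 2 : ℂ) • (ContinuousLinearMap.apply ℝ ℂ 1 + I • ContinuousLinearMap.apply ℝ ℂ I)

/-- `∂̄` in terms of the values at `1` and `i`. -/
lemma dbarL_apply (L : ℂ →L[ℝ] ℂ) : dbarL L = 1 / 2 * (L 1 + I * L I) := by
  simp [dbarL]
  ring

/-- The imaginary part as a map into `ℂ`. -/
noncomputable def imC : ℂ →L[ℝ] ℂ := Complex.ofRealCLM.comp Complex.imCLM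

/-- The coefficient of the identity in the derivative. -/
noncomputable def dA (c : ℤ → ℂ) (n : ℤ) (σ : ℂ) : ℂ :=
  2 * π * I * ((n : ℂ) / 3) * trm c n σ

/-- The coefficient of `Im` in the derivative. -/
noncomputable def dB (c : ℤ → ℂ) (n : ℤ) (σ : ℂ) : ℂ :=
  if n < 0 then c n * eT n σ *
    ((-(Real.exp (-(4 * π * an n * σ.im))) / (4 * Real.sqrt (an n) * σ.im) : ℝ) : ℂ) else 0

/-- The real derivative of a term. -/
noncomputable def Dtm (c : ℤ → ℂ) (n : ℤ) (σ : ℂ) : ℂ →L[ℝ] ℂ :=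
  dA c n σ • (1 : ℂ →L[ℝ] ℂ) + dB c n σ • imC

/-- The derivative of an exponential. -/
lemma hasDerivAt_eT (n : ℤ) (σ : ℂ) :
    HasDerivAt (eT n) (2 * π * I * ((n : ℂ) / 3) * eT n σ) σ := by
  have h := ((hasDerivAt_id σ).const_mul (2 * π * I * ((n : ℂ) / 3))).cexp
  simp only [id, mul_one] at h
  rw [mul_comm]
  exact h

/-- The derivative of a term. -/
lemma hasFDerivAt_trm (c : ℤ → ℂ) (n : ℤ) {σ : ℂ} (hσ : 0 < σ.im) :
    HasFDerivAt (trm c n) (Dtm c n σ) σ := by
  rcases lt_trichotomy 0 n with hn | hn | hn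
  · have e : trm c n = fun z => c n / 2 * eT n z := funext fun z => if_pos hn
    rw [e, Dtm, dA, dB, if_neg (not_lt.2 hn.le), e]
    refine (((hasDerivAt_eT n σ).const_mul (c n / 2)).complexToReal_fderiv).congr_fderiv ?_
    ext z
    simp
    left
    ring
  · subst hn
    have e : trm c 0 = fun _ => 0 := funext fun z => by simp [trm]
    rw [e, Dtm, dA, dB, e]
    refine (hasFDerivAt_const (0 : ℂ) σ).congr_fderiv ?_
    ext z
    simp
  · have e : trm c n = fun z => c n * eT n z * (radR (an n) z.im : ℂ) := funext fun z => by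
      rw [trm, if_neg (not_lt.2 hn.le), if_pos hn]
    rw [e, Dtm, dA, dB, if_pos hn, e]
    have h1 := ((hasDerivAt_eT n σ).const_mul (c n)).complexToReal_fderiv
    have h2 : HasFDerivAt (fun z : ℂ => (radR (an n) z.im : ℂ))
        (((-(Real.exp (-(4 * π * an n * σ.im))) / (4 * Real.sqrt (an n) * σ.im) : ℝ) : ℂ) • imC)
            σ := by
      have h := Complex.ofRealCLM.hasFDerivAt.comp σ
        ((hasDerivAt_radR (an_pos hn) hσ).comp_hasFDerivAt σ Complex.imCLM.hasFDerivAt)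
      refine h.congr_fderiv ?_
      ext z
      simp [imC]
    refine (h1.mul h2).congr_fderiv ?_
    ext z
    simp [imC]
    ring

/-- `Im σ` times the conjugate of `∂̄` of a term is the holomorphic term. -/
lemma dbarL_Dtm (c : ℤ → ℂ) (n : ℤ) {σ : ℂ} (hσ : 0 < σ.im) :
    (σ.im : ℂ) * conj (dbarL (Dtm c n σ)) = gtm c n σ := by
  have e : dbarL (Dtm c n σ) = I / 2 * dB c n σ := by
    rw [dbarL_apply, Dtm]
    simp [imC]
    linear_combination (dA c n σ / 2) * Complex.I_mul_I
  rw [e, gtm, dB]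
  split_ifs with hn
  · have hy : (σ.im : ℂ) ≠ 0 := Complex.ofReal_ne_zero.2 hσ.ne'
    have ha : (Real.sqrt (an n) : ℂ) ≠ 0 :=
      Complex.ofReal_ne_zero.2 (Real.sqrt_pos.2 (an_pos hn)).ne'
    have hexp : conj (eT n σ) * ((Real.exp (-(4 * π * an n * σ.im)) : ℝ) : ℂ) = eT (-n) σ := by
      rw [eT, eT, ← Complex.exp_conj, Complex.ofReal_exp, ← Complex.exp_add]
      congr 1
      simp only [map_mul, map_div₀, Complex.conj_ofReal, Complex.conj_I, map_intCast, map_ofNat, an]
      have h := Complex.re_add_im σ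
      have h' : conj σ = (σ.re : ℂ) - σ.im * I := by
        apply Complex.ext <;> simp
      rw [h']
      push_cast
      linear_combination (-(2 * π * I * ((n : ℂ) / 3))) * h
        + (4 * π * (σ.im : ℂ) * ((n : ℂ) / 3)) * Complex.I_mul_I
    rw [← hexp]
    simp only [map_mul, map_div₀, Complex.conj_ofReal, Complex.conj_I, map_ofNat,
      Complex.ofReal_div, Complex.ofReal_neg, Complex.ofReal_mul, Complex.ofReal_ofNat, map_neg]
    field_simp
    ring
  · simp

/-- The size of a term of index `n` at height `y`, up to its coefficient: `exp (-2π |n| y / 3)`. -/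
noncomputable def dec (n : ℤ) (y : ℝ) : ℝ := Real.exp (-(2 * π * |(n : ℝ)| / 3 * y))

/-- The constant in the bound of `radR` on the half plane above `δ`. -/
noncomputable def KR (δ : ℝ) : ℝ := Real.exp (4 * π * δ / 3) * kB (4 * π * δ / 3)

/-- The constant is nonnegative. -/
lemma KR_nonneg (δ : ℝ) : 0 ≤ KR δ := mul_nonneg (Real.exp_pos _).le (kB_nonneg _)

/-- The absolute value of a positive exponential is the decay. -/
lemma norm_eT_pos {n : ℤ} (hn : 0 < n) (σ : ℂ) : ‖eT n σ‖ = dec n σ.im := by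
  rw [norm_eT, dec, abs_of_pos (Int.cast_pos.2 hn)]
  ring_nf

/-- A negative exponential with its radial exponential has the size of the decay. -/
lemma norm_eT_neg {n : ℤ} (hn : n < 0) (σ : ℂ) :
    ‖eT n σ‖ * Real.exp (-(4 * π * an n * σ.im)) = dec n σ.im := by
  rw [norm_eT, dec, abs_of_neg (Int.cast_lt_zero.2 hn), ← Real.exp_add, an]
  ring_nf

/-- A bound for a term uniform on half planes. -/
lemma norm_trm_le (c : ℤ → ℂ) (n : ℤ) {δ : ℝ} (hδ : 0 < δ) {σ : ℂ} (hσ : δ ≤ σ.im) :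
    ‖trm c n σ‖ ≤ ‖c n‖ * (1 + Real.sqrt σ.im * KR δ) * dec n σ.im := by
  have hK := KR_nonneg δ
  have hd : 0 ≤ dec n σ.im := (Real.exp_pos _).le
  rw [trm]
  split_ifs with h1 h2
  · rw [norm_mul, norm_div, norm_eT_pos h1, Complex.norm_two]
    refine mul_le_mul_of_nonneg_right ?_ hd
    nlinarith [norm_nonneg (c n), mul_nonneg (norm_nonneg (c n))
      (mul_nonneg (Real.sqrt_nonneg σ.im) hK)]
  · rw [norm_mul, norm_mul, Complex.norm_real, Real.norm_of_nonneg (radR_nonneg _ _)]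
    calc ‖c n‖ * ‖eT n σ‖ * radR (an n) σ.im
        ≤ ‖c n‖ * ‖eT n σ‖ * (Real.sqrt σ.im * KR δ * Real.exp (-(4 * π * an n * σ.im))) :=
          mul_le_mul_of_nonneg_left (radR_le hδ (one_third_le_an h2) hσ) (by positivity)
      _ = ‖c n‖ * (Real.sqrt σ.im * KR δ) * dec n σ.im := by rw [← norm_eT_neg h2]; ring
      _ ≤ _ := by
        refine mul_le_mul_of_nonneg_right (mul_le_mul_of_nonneg_left ?_ (norm_nonneg _)) hd
        linarith
  · rw [_root_.norm_zero]; positivity

/-- `√(|n| / 3)` is at least one quarter. -/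
lemma quarter_le_sqrt_an {n : ℤ} (hn : n < 0) : 1 / 4 ≤ Real.sqrt (an n) :=
  Real.le_sqrt_of_sq_le (by nlinarith [one_third_le_an hn])

/-- A bound for the coefficient of `Im` in the derivative. -/
lemma norm_dB_le (c : ℤ → ℂ) (n : ℤ) {δ : ℝ} (hδ : 0 < δ) {σ : ℂ} (hσ : δ ≤ σ.im) :
    ‖dB c n σ‖ ≤ ‖c n‖ * (1 / δ) * dec n σ.im := by
  rw [dB]
  split_ifs with hn
  · have hs := quarter_le_sqrt_an hn
    have h4 : δ ≤ 4 * Real.sqrt (an n) * σ.im := by nlinarith
    rw [norm_mul, norm_mul, Complex.norm_real, Real.norm_eq_abs, abs_div, abs_neg, Real.abs_exp,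
      abs_of_pos (hδ.trans_le h4), ← norm_eT_neg hn]
    calc ‖c n‖ * ‖eT n σ‖ * (Real.exp (-(4 * π * an n * σ.im)) / (4 * Real.sqrt (an n) * σ.im))
        ≤ ‖c n‖ * ‖eT n σ‖ * (Real.exp (-(4 * π * an n * σ.im)) / δ) :=
          mul_le_mul_of_nonneg_left (div_le_div_of_nonneg_left (Real.exp_pos _).le hδ h4)
            (by positivity)
      _ = _ := by ring
  · rw [_root_.norm_zero]
    exact mul_nonneg (mul_nonneg (norm_nonneg _) (by positivity)) (Real.exp_pos _).le

/-- A bound for the coefficient of the identity in the derivative. -/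
lemma norm_dA_le (c : ℤ → ℂ) (n : ℤ) {δ : ℝ} (hδ : 0 < δ) {σ : ℂ} (hσ : δ ≤ σ.im) :
    ‖dA c n σ‖ ≤ 2 * π * |(n : ℝ)| / 3 * (‖c n‖ * (1 + Real.sqrt σ.im * KR δ) * dec n σ.im) := by
  have e : ‖2 * (π : ℂ) * I * ((n : ℂ) / 3)‖ = 2 * π * |(n : ℝ)| / 3 := by
    simp [abs_of_pos Real.pi_pos]
    ring
  rw [dA, norm_mul, e]
  exact mul_le_mul_of_nonneg_left (norm_trm_le c n hδ hσ) (by positivity)

/-- A bound for the derivative of a term, uniform on half planes. -/
lemma norm_Dtm_le (c : ℤ → ℂ) (n : ℤ) {δ : ℝ} (hδ : 0 < δ) {σ : ℂ} (hσ : δ ≤ σ.im) :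
    ‖Dtm c n σ‖ ≤ ‖c n‖ * ((2 * π * |(n : ℝ)| / 3) * (1 + Real.sqrt σ.im * KR δ) + 1 / δ) *
      dec n σ.im := by
  have h : ‖Dtm c n σ‖ ≤ ‖dA c n σ‖ + ‖dB c n σ‖ := by
    refine ContinuousLinearMap.opNorm_le_bound _ (by positivity) fun z => ?_
    have e : Dtm c n σ z = dA c n σ * z + dB c n σ * (z.im : ℂ) := by simp [Dtm, imC]
    rw [e]
    refine (norm_add_le _ _).trans ?_
    rw [norm_mul, norm_mul, Complex.norm_real, Real.norm_eq_abs, add_mul]
    exact add_le_add le_rfl (mul_le_mul_of_nonneg_left (Complex.abs_im_le_norm z) (norm_nonneg _))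
  exact h.trans ((add_le_add (norm_dA_le c n hδ hσ) (norm_dB_le c n hδ hσ)).trans_eq (by ring))

/-- A power times an exponential in `|n|` is summable over `ℤ`. -/
lemma summable_decay {r : ℝ} (hr : 0 < r) (k : ℕ) :
    Summable fun n : ℤ => |(n : ℝ)| ^ k * Real.exp (-(r * |(n : ℝ)|)) := by
  have h := Real.summable_pow_mul_exp_neg_nat_mul k hr
  refine Summable.of_nat_of_neg (h.congr fun n => ?_) (h.congr fun n => ?_) <;> simp

/-- On a half plane subexponential coefficients times the decay decrease exponentially. -/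
lemma exists_bound_strip (hc : SubExp c) {δ : ℝ} (hδ : 0 < δ) :
    ∃ C, 0 ≤ C ∧ ∀ (n : ℤ) (y : ℝ), δ ≤ y →
      ‖c n‖ * dec n y ≤ C * Real.exp (-(π * δ / 3 * |(n : ℝ)|)) := by
  obtain ⟨C, hC0, hC⟩ := hc (π * δ / 3) (by positivity)
  refine ⟨C, hC0, fun n y hy => ?_⟩
  calc ‖c n‖ * dec n y ≤ C * Real.exp (π * δ / 3 * |(n : ℝ)|) * dec n y :=
        mul_le_mul_of_nonneg_right (hC n) (Real.exp_pos _).le
    _ ≤ _ := by
      rw [dec, mul_assoc, ← Real.exp_add]
      refine mul_le_mul_of_nonneg_left (Real.exp_le_exp.2 ?_) hC0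
      have h : 2 * π * |(n : ℝ)| / 3 * δ ≤ 2 * π * |(n : ℝ)| / 3 * y :=
        mul_le_mul_of_nonneg_left hy (by positivity)
      linarith

/-- The series converges absolutely for subexponential coefficients. -/
lemma summable_trm (hc : SubExp c) {σ : ℂ} (hσ : 0 < σ.im) :
    Summable fun n => trm c n σ := by
  obtain ⟨C, hC0, hC⟩ := exists_bound_strip hc hσ
  refine Summable.of_norm_bounded (((summable_decay (r := π * σ.im / 3) (by positivity) 0).mul_left
    ((1 + Real.sqrt σ.im * KR σ.im) * C))) fun n => ?_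
  refine (norm_trm_le c n hσ le_rfl).trans ?_
  have := mul_le_mul_of_nonneg_left (hC n _ le_rfl)
    (show 0 ≤ 1 + Real.sqrt σ.im * KR σ.im by have := KR_nonneg σ.im; positivity)
  rw [pow_zero, one_mul]
  linarith

/-- **Differentiation of the series.** The series `GS` is real differentiable and `Im σ` times the
conjugate of its `∂̄` is `GG`. -/
theorem hasFDerivAt_GS (hc : SubExp c) {σ : ℂ} (hσ : 0 < σ.im) :
    ∃ L, HasFDerivAt (GS c) L σ ∧ (σ.im : ℂ) * conj (dbarL L) = GG c σ := by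
  set δ := σ.im / 2 with hδd
  have hδ : 0 < δ := half_pos hσ
  set Y := 2 * σ.im with hYd
  set s : Set ℂ := Complex.imCLM ⁻¹' Set.Ioo δ Y
  -- work on the strip `δ < im < Y` around `σ`
  have hs : IsOpen s := isOpen_Ioo.preimage Complex.imCLM.continuous
  have hpre : IsPreconnected s :=
    ((convex_Ioo δ Y).linear_preimage Complex.imCLM.toLinearMap).isPreconnected
  have hmem : σ ∈ s := ⟨by simp [hδd]; linarith, by simp [hYd]; linarith⟩
  obtain ⟨C, hC0, hC⟩ := exists_bound_strip hc hδ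
  set K := 1 + Real.sqrt Y * KR δ
  have hK : 0 ≤ K := by have := KR_nonneg δ; positivity
  set u : ℤ → ℝ :=
    fun n => (2 * π / 3 * K * C) * (|(n : ℝ)| ^ 1 * Real.exp (-(π * δ / 3 * |(n : ℝ)|)))
    + (1 / δ * C) * (|(n : ℝ)| ^ 0 * Real.exp (-(π * δ / 3 * |(n : ℝ)|)))
  have hu : Summable u := ((summable_decay (by positivity) 1).mul_left _).add
    ((summable_decay (by positivity) 0).mul_left _)
  -- a summable bound on the derivatives there
  have hbd : ∀ n x, x ∈ s → ‖Dtm c n x‖ ≤ u n := by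
    intro n x hx
    have hx1 : δ ≤ x.im := le_of_lt hx.1
    refine (norm_Dtm_le c n hδ hx1).trans ?_
    have hk : 1 + Real.sqrt x.im * KR δ ≤ K :=
      add_le_add le_rfl (mul_le_mul_of_nonneg_right (Real.sqrt_le_sqrt (le_of_lt hx.2))
        (KR_nonneg δ))
    calc ‖c n‖ * (2 * π * |(n : ℝ)| / 3 * (1 + Real.sqrt x.im * KR δ) + 1 / δ) * dec n x.im
        ≤ (2 * π * |(n : ℝ)| / 3 * K + 1 / δ) * (‖c n‖ * dec n x.im) := by
          rw [mul_comm ‖c n‖, mul_assoc]
          exact mul_le_mul_of_nonneg_right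
            (add_le_add (mul_le_mul_of_nonneg_left hk (by positivity))
            le_rfl) (mul_nonneg (norm_nonneg _) (Real.exp_pos _).le)
      _ ≤ (2 * π * |(n : ℝ)| / 3 * K + 1 / δ) * (C * Real.exp (-(π * δ / 3 * |(n : ℝ)|))) :=
          mul_le_mul_of_nonneg_left (hC n _ hx1) (by positivity)
      _ = u n := by simp only [u, pow_one, pow_zero]; ring
  -- differentiate term by term
  have hd := hasFDerivAt_tsum_of_isPreconnected hu hs hpre
    (fun n x hx => hasFDerivAt_trm c n (hδ.trans (show δ < x.im from hx.1))) hbd hmem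
    (summable_trm hc hσ) hmem
  refine ⟨_, hd, ?_⟩
  have hsum : Summable fun n => Dtm c n σ := Summable.of_norm_bounded hu fun n => hbd n σ hmem
  rw [dbarL.map_tsum hsum, Complex.conj_tsum, ← tsum_mul_left]
  exact tsum_congr fun n => dbarL_Dtm c n hσ

/-- A bound for a holomorphic term. -/
lemma norm_gtm_le (c : ℤ → ℂ) (n : ℤ) (σ : ℂ) : ‖gtm c n σ‖ ≤ ‖c n‖ * dec n σ.im := by
  rw [gtm]
  split_ifs with hn
  · have hs := quarter_le_sqrt_an hn
    rw [norm_mul, norm_mul, RCLike.norm_conj, norm_eT_pos (neg_pos.2 hn)]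
    simp only [dec, Int.cast_neg, abs_neg]
    refine mul_le_mul_of_nonneg_right (mul_le_of_le_one_right (norm_nonneg _) ?_)
      (Real.exp_pos _).le
    rw [norm_div, Complex.norm_I, norm_mul, Complex.norm_real,
      Real.norm_of_nonneg (Real.sqrt_nonneg _)]
    simp only [Complex.norm_ofNat]
    rw [div_le_one (by linarith)]
    linarith
  · rw [_root_.norm_zero]; exact mul_nonneg (norm_nonneg _) (Real.exp_pos _).le

/-- The holomorphic series converges absolutely. -/
lemma summable_gtm (hc : SubExp c) {σ : ℂ} (hσ : 0 < σ.im) : Summable fun n => gtm c n σ := by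
  obtain ⟨C, -, hC⟩ := exists_bound_strip hc hσ
  refine Summable.of_norm_bounded
    ((summable_decay (r := π * σ.im / 3) (by positivity) 0).mul_left C)
    fun n => (norm_gtm_le c n σ).trans ((hC n _ le_rfl).trans_eq ?_)
  rw [pow_zero, one_mul]

/-- **Holomorphy.** The sum `GG` is holomorphic on the upper half plane. -/
theorem differentiableAt_GG (hc : SubExp c) {σ : ℂ} (hσ : 0 < σ.im) :
    DifferentiableAt ℂ (GG c) σ := by
  set δ := σ.im / 2 with hδd
  have hδ : 0 < δ := half_pos hσ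
  obtain ⟨C, -, hC⟩ := exists_bound_strip hc hδ
  set s : Set ℂ := Complex.imCLM ⁻¹' Set.Ioi δ
  have hs : IsOpen s := isOpen_Ioi.preimage Complex.imCLM.continuous
  refine (differentiableOn_tsum_of_summable_norm
    ((summable_decay (r := π * δ / 3) (by positivity) 0).mul_left C) (fun n => ?_) hs
    fun n x hx => (norm_gtm_le c n x).trans ((hC n _ (le_of_lt hx)).trans_eq ?_)).differentiableAt
      (hs.mem_nhds (by change δ < σ.im; linarith))
  · refine Differentiable.differentiableOn fun x => ?_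
    change DifferentiableAt ℂ (fun z => gtm c n z) x
    simp only [gtm]
    split_ifs
    · exact ((hasDerivAt_eT (-n) x).differentiableAt).const_mul _
    · exact differentiableAt_const _
  · rw [pow_zero, one_mul]

/-- **Decay at infinity.** Both sums decay exponentially at infinity. -/
theorem exists_decay (hc : SubExp c) :
    ∃ C, ∀ σ : ℂ, 1 ≤ σ.im →
      ‖GS c σ‖ ≤ C * (1 + Real.sqrt σ.im) * Real.exp (-(π / 3 * σ.im)) ∧
      ‖GG c σ‖ ≤ C * Real.exp (-(π / 3 * σ.im)) := by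
  obtain ⟨C, hC0, hC⟩ := hc (π / 6) (by positivity)
  have hS := summable_decay (r := π / 6) (by positivity) 0
  set S := ∑' n : ℤ, |(n : ℝ)| ^ 0 * Real.exp (-(π / 6 * |(n : ℝ)|))
  refine ⟨(1 + KR 1) * C * S, fun σ hσ => ?_⟩
  -- For `n ≠ 0` the decay of `dec` beats the subexponential coefficients, uniformly in height.
  have key : ∀ n : ℤ, n ≠ 0 → ‖c n‖ * dec n σ.im
      ≤ C * Real.exp (-(π / 3 * σ.im)) * Real.exp (-(π / 6 * |(n : ℝ)|)) := by
    intro n hn
    have h1 : (1 : ℝ) ≤ |(n : ℝ)| := by exact_mod_cast Int.one_le_abs hn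
    calc ‖c n‖ * dec n σ.im ≤ C * Real.exp (π / 6 * |(n : ℝ)|) * dec n σ.im :=
          mul_le_mul_of_nonneg_right (hC n) (Real.exp_pos _).le
      _ ≤ _ := by
        rw [dec, mul_assoc, mul_assoc C (Real.exp (-(π / 3 * σ.im))), ← Real.exp_add,
          ← Real.exp_add]
        refine mul_le_mul_of_nonneg_left (Real.exp_le_exp.2 ?_) hC0
        nlinarith [mul_nonneg (sub_nonneg.2 h1) (sub_nonneg.2 hσ), Real.pi_pos,
          mul_nonneg Real.pi_pos.le (mul_nonneg (sub_nonneg.2 h1) (sub_nonneg.2 hσ))]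
  have hK := KR_nonneg 1
  -- Sum these bounds for both series.
  constructor
  · have hb : ∀ n, ‖trm c n σ‖ ≤ (1 + KR 1) * C * (1 + Real.sqrt σ.im) *
        Real.exp (-(π / 3 * σ.im)) * (|(n : ℝ)| ^ 0 * Real.exp (-(π / 6 * |(n : ℝ)|))) :=
            fun n => by
      by_cases hn : n = 0
      · subst hn; simp [trm]; positivity
      refine (norm_trm_le c n one_pos hσ).trans ?_
      calc ‖c n‖ * (1 + Real.sqrt σ.im * KR 1) * dec n σ.im
          = (1 + Real.sqrt σ.im * KR 1) * (‖c n‖ * dec n σ.im) := by ring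
        _ ≤ ((1 + KR 1) * (1 + Real.sqrt σ.im)) *
            (C * Real.exp (-(π / 3 * σ.im)) * Real.exp (-(π / 6 * |(n : ℝ)|))) :=
          mul_le_mul (by nlinarith [Real.sqrt_nonneg σ.im]) (key n hn)
            (mul_nonneg (norm_nonneg _) (Real.exp_pos _).le) (by positivity)
        _ = _ := by rw [pow_zero]; ring
    refine (tsum_of_norm_bounded (hS.mul_left _).hasSum hb).trans_eq ?_
    rw [tsum_mul_left]; ring
  · have hb : ∀ n, ‖gtm c n σ‖ ≤ (1 + KR 1) * C * Real.exp (-(π / 3 * σ.im)) *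
        (|(n : ℝ)| ^ 0 * Real.exp (-(π / 6 * |(n : ℝ)|))) := fun n => by
      by_cases hn : n = 0
      · subst hn; simp [gtm]; positivity
      refine (norm_gtm_le c n σ).trans ((key n hn).trans ?_)
      rw [pow_zero, one_mul]
      nlinarith [mul_nonneg hK (mul_nonneg hC0 (mul_nonneg (Real.exp_pos (-(π / 3 * σ.im))).le
        (Real.exp_pos (-(π / 6 * |(n : ℝ)|))).le))]
    refine (tsum_of_norm_bounded (hS.mul_left _).hasSum hb).trans_eq ?_
    rw [tsum_mul_left]; ring

end Fermat.LT3
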