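import Fermat.Agent.LT3.Series.Forms

/-!
# The two theta lifts as linear maps into cusp forms, with their coefficients

`th1` and `th2` are the lifts; `coeff_th1` and `coeff_th2` give the coefficients, `th_slash` and
`th_cmul` their laws.
-/

set_option autoImplicit false
open Filter Set UpperHalfPlane
open scoped ComplexConjugate MatrixGroups ModularForm Manifold
open CongruenceSubgroup

namespace Fermat.LT3
open Fermat.LT

variable {E : ℕ} [NeZero E] [Fact (Nat.Coprime E 3)] (A : Auto E)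

/-- The level: the lower level of `RM` as a subgroup of `GL₂(ℝ)`. -/
abbrev lowG (E : ℕ) : Subgroup (GL (Fin 2) ℝ) :=
  (RM.lowLevel 1 E).map (Matrix.SpecialLinearGroup.mapGL ℝ)

omit [NeZero E] [Fact (Nat.Coprime E 3)] in
/-- `topLevel 1` lies in `InG27`. -/
lemma inG27_of_top {γ : SL(2, ℤ)} (h : γ ∈ RM.topLevel 1) : InG27 γ := by
  have h1 : γ ∈ Gamma1 27 := h.1
  rw [Gamma1_mem] at h1
  exact ⟨h1.1, h1.2.2⟩

/-- The operators are trivial on `Γ₁(27) ∩ Γ(E)`. -/
lemma wW_one_of_mem {γ : SL(2, ℤ)} (h : InG27 γ) (hE : γ ∈ CongruenceSubgroup.Gamma E)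
    (φ : CP E → ℂ) :
    wW γ φ = φ := by
  rw [CongruenceSubgroup.Gamma_mem] at hE
  obtain ⟨-, hb, hc, hd⟩ := hE
  obtain ⟨j, hj⟩ := h.dvd.2.1
  have e10 : γ 1 0 / 9 = 3 * j := by omega
  have h3 : (9 : ZMod E) * (inv3 * inv3) = 1 := by
    linear_combination (3 * inv3 + 1) * three_mul_inv3 (E := E)
  have hc9 : ((conj9 γ 1 0 : ℤ) : ZMod E) = 0 := by
    rw [conj9_coe h]
    simp [e10]
    rw [hj] at hc
    push_cast at hc
    linear_combination (inv3 * inv3) * hc - ((3 : ZMod E) * (j : ZMod E)) * h3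
  simp only [wW, LinearMap.comp_apply, wop_gamma0 h.conj9_mem hc9]
  funext x
  simp [triInvL, triL, triInv, tri, conj9_coe h, hb, hd, ee_zero, ← mul_assoc, three_mul_inv3]

omit [Fact (Nat.Coprime E 3)] [NeZero E] in
/-- `E` is a period of the level. -/
lemma per_mem : (E : ℝ) ∈ (lowG E).strictPeriods := by
  rw [Subgroup.mem_strictPeriods_iff]
  refine ⟨⟨!![1, (E : ℤ); 0, 1], by simp [Matrix.det_fin_two_of]⟩, ⟨⟨?_, ?_⟩, ?_⟩, ?_⟩
  · change _ ∈ Gamma1 27
    rw [Gamma1_mem]; simp
  · change _ ∈ Gamma0 1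
    rw [Gamma0_mem]; simp
  · change _ ∈ CongruenceSubgroup.Gamma E
    rw [CongruenceSubgroup.Gamma_mem]; simp
  · ext i j
    fin_cases i <;> fin_cases j <;> simp [Matrix.GeneralLinearGroup.upperRightHom]

omit [Fact (Nat.Coprime E 3)] in
/-- The level has finite index. -/
lemma finiteIndex_low : (RM.lowLevel 1 E).FiniteIndex := by
  unfold RM.lowLevel RM.topLevel
  infer_instance

/-- A cusp form of weight one from a function with the law, holomorphy and growth. -/
noncomputable def mkForm (f : ℂ → ℂ)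
    (hl : ∀ γ : SL(2, ℤ), γ ∈ RM.lowLevel 1 E → ∀ z : ℂ, 0 < z.im →
      f (((γ 0 0 : ℂ) * z + γ 0 1) / ((γ 1 0 : ℂ) * z + γ 1 1)) = ((γ 1 0 : ℂ) * z + γ 1 1) * f z)
    (hd : DifferentiableOn ℂ f {z | 0 < z.im}) (hb : Bnd f) : CuspForm (lowG E) 1 where
  toFun z := f z
  slash_action_eq' := by
    rintro g ⟨γ, hγ, rfl⟩
    funext z
    change ((fun z : ℍ => f z) ∣[(1 : ℤ)] γ) z = f z
    rw [slash_one_apply, hl γ hγ _ z.im_pos, mul_div_cancel_left₀ _ (denom_ne γ z.im_pos)]
  holo' := mdiff_of_diffOn hd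
  zero_at_cusps' := fun {c} hc => by
    have := finiteIndex_low (E := E)
    rw [Subgroup.IsArithmetic.isCusp_iff_isCusp_SL2Z] at hc
    exact (OnePoint.isZeroAt_iff_forall_SL2Z hc).2 fun γ _ => isZeroAtImInfty_of_bnd hb γ

omit [Fact (E.Coprime 3)] in
/-- `mkForm` has the values of `f`. -/
@[simp] lemma mkForm_apply {f : ℂ → ℂ} {hl hd hb} (z : ℍ) :
    mkForm (E := E) f hl hd hb z = f z := rfl

/-- On the lower level both lifts transform without an operator. -/
lemma low_law (cls : Cl3) (φ : CP E → ℂ) {γ : SL(2, ℤ)} (hγ : γ ∈ RM.lowLevel 1 E) {z : ℂ}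
    (hz : 0 < z.im) :
    f1 A cls φ (((γ 0 0 : ℂ) * z + γ 0 1) / ((γ 1 0 : ℂ) * z + γ 1 1))
      = ((γ 1 0 : ℂ) * z + γ 1 1) * f1 A cls φ z ∧
    f2 A cls φ (((γ 0 0 : ℂ) * z + γ 0 1) / ((γ 1 0 : ℂ) * z + γ 1 1))
      = ((γ 1 0 : ℂ) * z + γ 1 1) * f2 A cls φ z := by
  have h27 := inG27_of_top hγ.1
  obtain ⟨h1, h2⟩ := f1_law A cls φ h27 hz
  rw [wW_one_of_mem h27 hγ.2] at h1 h2
  simp only [Complex.conj_conj] at h2
  exact ⟨h1, h2⟩

/-- **The first lift** as a linear map, defined when it is holomorphic. -/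
noncomputable def th1 (cls : Cl3) (h : HolCase A cls) :
    (CP E → ℂ) →ₗ[ℂ] CuspForm (lowG E) 1 where
  toFun φ := mkForm (f1 A cls φ) (fun _ hγ _ hz => (low_law A cls φ hγ hz).1) (diffOn_f1 A h φ)
    (bnd_of_trans A (per_spec cls φ)).1
  map_add' φ ψ := CuspForm.ext fun z => by
    simp only [add_apply, mkForm_apply, f1, spec_add]
    exact FS_add A (per_spec cls φ) (per_spec cls ψ) (three_mul_im z.im_pos)
  map_smul' c φ := CuspForm.ext fun z => by
    simp only [RingHom.id_apply, smul_apply, mkForm_apply, f1, spec_smul,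
      smul_eq_mul]
    exact FS_smul A c _

/-- **The second lift** as a linear map, defined always. -/
noncomputable def th2 (cls : Cl3) : (CP E → ℂ) →ₗ[ℂ] CuspForm (lowG E) 1 where
  toFun φ := mkForm (f2 A cls φ) (fun _ hγ _ hz => (low_law A cls φ hγ hz).2) (diffOn_f2 A cls φ)
    (bnd_of_trans A (per_spec cls fun x => conj (φ x))).2
  map_add' φ ψ := CuspForm.ext fun z => by
    simp only [add_apply, mkForm_apply, f2]
    rw [show (fun x => conj ((φ + ψ) x)) = (fun x => conj (φ x)) + fun x => conj (ψ x) from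
      funext fun x => by simp, spec_add]
    exact gF_add A (per_spec cls _) (per_spec cls _) (three_mul_im z.im_pos)
  map_smul' c φ := CuspForm.ext fun z => by
    simp only [RingHom.id_apply, smul_apply, mkForm_apply, f2, smul_eq_mul]
    rw [show (fun x => conj ((c • φ) x)) = conj c • fun x => conj (φ x) from
      funext fun x => by simp, spec_smul, gF_smul A _ (per_spec cls _) (three_mul_im z.im_pos),
      Complex.conj_conj]

omit [Fact (Nat.Coprime E 3)] [NeZero E] in
/-- The exponential of the frequency `3 m` at `z / E` is the `m`th power of `q`. -/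
lemma eT_three_mul (m : ℕ) (z : ℂ) :
    eT ((3 : ℤ) * m) (z / (E : ℂ)) = Function.Periodic.qParam (E : ℝ) z ^ m := by
  rw [eT, Function.Periodic.qParam, ← Complex.exp_nat_mul]
  congr 1
  push_cast
  field_simp

omit [Fact (Nat.Coprime E 3)] in
/-- The `q`-expansion of the first lift. -/
lemma hasSum_f1 {cls : Cl3} (h : HolCase A cls) (φ : CP E → ℂ) {z : ℂ} (hz : 0 < z.im) :
    HasSum (fun m : ℕ => kap A (spec cls φ) (3 * (m : ℤ)) / 2 *
      Function.Periodic.qParam (E : ℝ) z ^ m) (f1 A cls φ z) := by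
  have hs := (summable_trm (subExp_kap A (per_spec cls φ))
    (scl_im_pos (E := E) (three_mul_im hz))).hasSum
  rw [← GS, ← FS_eq A (per_spec cls φ) (three_mul_im hz), ← f1, scl_three] at hs
  refine ((Function.Injective.hasSum_iff (g := fun m : ℕ => (3 : ℤ) * m)
    (fun a b hab => by simpa using hab) fun n hn => ?_).2 hs).congr_fun fun m => ?_
  · by_cases hpos : 0 < n
    · by_cases h3 : (3 : ℤ) ∣ n
      · obtain ⟨k, rfl⟩ := h3
        exact absurd ⟨k.toNat, show (3 : ℤ) * (k.toNat : ℤ) = 3 * k by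
          rw [Int.toNat_of_nonneg (by omega)]⟩ hn
      · simp [trm, hpos, kap_spec_eq_zero A cls φ h3]
    · rw [trm, if_neg hpos]
      split_ifs with hneg
      · simp [h φ n hneg]
      · rfl
  · rw [Function.comp_apply, trm]
    rcases Nat.eq_zero_or_pos m with rfl | hm
    · simp [kap, pairCoef]
    · rw [if_pos (by omega), eT_three_mul]

omit [Fact (Nat.Coprime E 3)] in
/-- The `q`-expansion of the second lift. -/
lemma hasSum_f2 (cls : Cl3) (φ : CP E → ℂ) {z : ℂ} (hz : 0 < z.im) :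
    HasSum (fun m : ℕ => conj (kap A (spec cls fun x => conj (φ x)) (-(3 * (m : ℤ)))) *
      (Complex.I / (8 * (Real.sqrt m : ℂ))) * Function.Periodic.qParam (E : ℝ) z ^ m)
      (f2 A cls φ z) := by
  set Ψ := spec cls fun x => conj (φ x)
  have hs := (summable_gtm (subExp_kap A (per_spec cls fun x => conj (φ x)))
    (scl_im_pos (E := E) (three_mul_im hz))).hasSum
  rw [← GG, ← gF, ← f2, scl_three] at hs
  refine ((Function.Injective.hasSum_iff (g := fun m : ℕ => -((3 : ℤ) * m))
    (fun a b hab => by simpa using hab) fun n hn => ?_).2 hs).congr_fun fun m => ?_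
  · by_cases hneg : n < 0
    · by_cases h3 : (3 : ℤ) ∣ n
      · obtain ⟨k, rfl⟩ := h3
        exact absurd ⟨(-k).toNat, show -((3 : ℤ) * ((-k).toNat : ℤ)) = 3 * k by
          rw [Int.toNat_of_nonneg (by omega)]; ring⟩ hn
      · simp [gtm, kap_spec_eq_zero A cls _ h3]
    · simp [gtm, hneg]
  · rw [Function.comp_apply, gtm]
    rcases Nat.eq_zero_or_pos m with rfl | hm
    · simp [kap, pairCoef]
    · rw [if_pos (by omega), neg_neg, eT_three_mul]
      simp [an, Ψ]

/-- **Coefficients of the first lift.** In the holomorphic case they are half the `κ` at the triples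
`3m`. -/
theorem coeff_th1 {cls : Cl3} (h : HolCase A cls) (φ : CP E → ℂ) (m : ℕ) :
    (qExpansion (E : ℝ) ⇑(th1 A cls h φ)).coeff m = kap A (spec cls φ) (3 * (m : ℤ)) / 2 :=
  (ModularFormClass.qExpansion_coeff_unique (Nat.cast_pos.2 (NeZero.pos E)) per_mem
    (f := th1 A cls h φ) (fun τ => hasSum_f1 A h φ τ.im_pos) m).symm

/-- **Coefficients of the second lift.** They are the conjugates of the `κ` of the
conjugate of `φ` at `-3m`, times `i / (8 √m)`. -/
theorem coeff_th2 (cls : Cl3) (φ : CP E → ℂ) (m : ℕ) :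
    (qExpansion (E : ℝ) ⇑(th2 A cls φ)).coeff m =
      conj (kap A (spec cls fun x => conj (φ x)) (-(3 * (m : ℤ)))) *
        (Complex.I / (8 * (Real.sqrt m : ℂ))) :=
  (ModularFormClass.qExpansion_coeff_unique (Nat.cast_pos.2 (NeZero.pos E)) per_mem
    (f := th2 A cls φ) (fun τ => hasSum_f2 A cls φ τ.im_pos) m).symm

/-- The operators conjugated by complex conjugation. -/
noncomputable def wWc (γ : SL(2, ℤ)) : COp E where
  toFun φ := fun x => conj (wW γ (fun y => conj (φ y)) x)
  map_add' φ ψ := by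
    funext x
    rw [show (fun y => conj ((φ + ψ) y)) = (fun y => conj (φ y)) + fun y => conj (ψ y) from
      funext fun y => by simp, map_add]
    simp
  map_smul' c φ := by
    funext x
    rw [show (fun y => conj ((c • φ) y)) = conj c • fun y => conj (φ y) from
      funext fun y => by simp, map_smul]
    simp

/-- **Equivariance**: the slash by `γ` is `wW γ` on the first lift, `wWc γ` on the second. -/
theorem th_slash (cls : Cl3) {γ : SL(2, ℤ)} (hγ : InG27 γ) (φ : CP E → ℂ) :
    (∀ h : HolCase A cls, ⇑(th1 A cls h φ) ∣[(1 : ℤ)] γ = ⇑(th1 A cls h (wW γ φ))) ∧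
      ⇑(th2 A cls φ) ∣[(1 : ℤ)] γ = ⇑(th2 A cls (wWc γ φ)) := by
  refine ⟨fun h => funext fun z => ?_, funext fun z => ?_⟩
  · change ((fun z : ℍ => f1 A cls φ z) ∣[(1 : ℤ)] γ) z = f1 A cls (wW γ φ) z
    rw [slash_one_apply, (f1_law A cls φ hγ z.im_pos).1,
      mul_div_cancel_left₀ _ (denom_ne γ z.im_pos)]
  · change ((fun z : ℍ => f2 A cls φ z) ∣[(1 : ℤ)] γ) z = f2 A cls (wWc γ φ) z
    rw [slash_one_apply, (f1_law A cls φ hγ z.im_pos).2,
      mul_div_cancel_left₀ _ (denom_ne γ z.im_pos)]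
    rfl

/-- **The character**: multiplication of the argument by a norm one `u` scales the lifts by `θ u`
and by its conjugate. -/
theorem th_cmul (T : TAuto E) (cls : Cl3) {u : CP E} (hu : cnorm u = 1) (φ : CP E → ℂ) :
    (∀ h : HolCase T.toAuto cls, th1 T.toAuto cls h (φ ∘ cmul u)
        = T.θ ⟨u.1, u.2⟩ • th1 T.toAuto cls h φ) ∧
      th2 T.toAuto cls (φ ∘ cmul u) = conj (T.θ ⟨u.1, u.2⟩) • th2 T.toAuto cls φ := by
  refine ⟨fun h => CuspForm.ext fun z => ?_, CuspForm.ext fun z => ?_⟩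
  · rw [smul_apply]
    exact FS_spec_cmul T cls φ hu _
  · rw [smul_apply]
    have h := gF_trans T.toAuto (per_spec cls ((fun x => conj (φ x)) ∘ cmul u))
      (per_spec cls fun x => conj (φ x)) (γ := 1) (k := T.θ ⟨u.1, u.2⟩)
      (fun w _ => by simp [FS_spec_cmul T cls _ hu]) (three_mul_im z.im_pos)
    simp at h
    exact h

end Fermat.LT3
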